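import Mathlib
import Fermat.Agent.Lib.BadRed.Nodal.ToricKeyDef
import Fermat.Agent.Lib.BadRed.Nodal.NSDef

set_option autoImplicit false

/-!
# S33-new, abstract part: the nodal package at the residue characteristic `p` (architect helper66)

Setting of cluster T (`NodalSetup`, `NodalNS`), but the exponent is the residue characteristic `p`.
`lam : K` is a uniformiser of `ℚ_p(ζ_p)`, i.e. `p / lam ^ (p - 1)` is a unit of `A` (for `K = ℚ̄`:
`lam = ζ - 1`), and `δ = lam ^ p` is the CRITICAL LEVEL `p / (p - 1)`.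

Definitions and the exact statements of the steps; proofs in the sibling files:

* `HighLevelStatement` (HL) : `Nodal/P/HighLevel.lean`  — key lemma for the exponent `p` above the
  critical level (adaptation of `Nodal/KeyMain.lean`);
* `LevelStatement` (L)      : `Nodal/P/Level.lean`      — split Jacobi generators have level `≥ δ`;
* `ASKeyStatement` (AS)     : `Nodal/P/Level.lean`      — ordinary `RedTrivial` `p`-torsion divisors with
  a generator of level `> δ` are principal;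
* `OrdRepStatement` (R0)    : `Nodal/P/OrdRep.lean`     — ordinary `RedTrivial` representatives;
* `PCovStatement` (COV)     : `Nodal/P/Cov.lean`        — inertial automorphisms `t` with
  `t δ / δ ≡ e` act on split `p`-torsion classes by `e`: `u ^ p * g ^ e = c * (t • g)`.
-/

noncomputable section

open AlgebraicCurve Fermat.Agent.RR Fermat.Agent.Deuring

namespace Fermat.Agent.BadRed.PTor

variable {K F k Fk₁ Fk₂ : Type*} [Field K] [Field F] [Algebra K F]
  [Field k] [Field Fk₁] [Algebra k Fk₁] [Field Fk₂] [Algebra k Fk₂] {ι : Type*}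

/-- `lam` is a uniformiser of the `p`-th cyclotomic field: `lam` is a nonzero non-unit of `A` and
`p / lam ^ (p - 1)` is a unit of `A`. -/
structure IsCycloUnif (N : NodalSetup K F k Fk₁ Fk₂ ι) (p : ℕ) (lam : K) : Prop where
  prime : p.Prime
  ne_zero : lam ≠ 0
  mem : lam ∈ N.S₁.A
  inv_not_mem : lam⁻¹ ∉ N.S₁.A
  kappa_mem : (p : K) / lam ^ (p - 1) ∈ N.S₁.A
  kappa_inv_mem : lam ^ (p - 1) / (p : K) ∈ N.S₁.A
  p_ne_zero : (p : K) ≠ 0

/-- `u ≡ 1` modulo `δ` for both valuations. -/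
def LevelGE (N : NodalSetup K F k Fk₁ Fk₂ ι) (δ : K) (u : F) : Prop :=
  (u - 1) / algebraMap K F δ ∈ N.S₁.Ov ∧ (u - 1) / algebraMap K F δ ∈ N.S₂.Ov

/-- `u ≡ 1` modulo `δ 𝔪` for both valuations. -/
def LevelGT (N : NodalSetup K F k Fk₁ Fk₂ ι) (δ : K) (u : F) : Prop :=
  ((u - 1) / algebraMap K F δ ∈ N.S₁.Ov ∧ N.S₁.red ((u - 1) / algebraMap K F δ) = 0) ∧
    ((u - 1) / algebraMap K F δ ∈ N.S₂.Ov ∧ N.S₂.red ((u - 1) / algebraMap K F δ) = 0)

/-- **split functions** (for the exponent `p`): for each of the two valuations, `g` is a constant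
times a `p`-th power times a `1`-unit of level `≥ p ^ 2` (`> p / (p - 1)` as `p` is odd; by Hensel
this is the same as: the Kummer extension `F(g^{1/p})` is completely split at the valuation). -/
def IsSplitFn (N : NodalSetup K F k Fk₁ Fk₂ ι) (p : ℕ) (g : F) : Prop :=
  (∃ (H : F) (c : K), H ≠ 0 ∧ c ≠ 0 ∧
      (g / (algebraMap K F c * H ^ p) - 1) / algebraMap K F ((p : K) ^ 2) ∈ N.S₁.Ov) ∧
    (∃ (H : F) (c : K), H ≠ 0 ∧ c ≠ 0 ∧
      (g / (algebraMap K F c * H ^ p) - 1) / algebraMap K F ((p : K) ^ 2) ∈ N.S₂.Ov)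

/-- the Jacobi-form divisor `∑ (P i - R i)`. -/
def jacobiDiv {N : NodalSetup K F k Fk₁ Fk₂ ι} {g : ℕ} (NS : NodalNS N g)
    (P : Fin g → Place K F) : Divisor K F :=
  ∑ i, (Finsupp.single (P i) (1 : ℤ) - Finsupp.single (NS.R i) (1 : ℤ))

/-- **(HL) the key lemma for the exponent `p` above the critical level**: if `u₀` has divisor
`p * ∑ (P i - R i)` with `P i` in the residue disc of `Rb i`, `u₀(P0) = 1` and
`u₀ ≡ 1 mod lam ^ p 𝔪` for both valuations, then `P i = R i` for all `i`. -/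
def HighLevelStatement (N : NodalSetup K F k Fk₁ Fk₂ ι) (g : ℕ) (NS : NodalNS N g)
    (p : ℕ) (lam : K) : Prop :=
  ∀ P : Fin g → Place K F, (∀ i, N.r (P i) = some (NS.Rb i)) →
    ∀ u₀ : F, u₀ ≠ 0 →
      (∀ v : Place K F, v.ord u₀ =
        p * ∑ i, (Finsupp.single (P i) (1 : ℤ) v - Finsupp.single (NS.R i) (1 : ℤ) v)) →
      0 < NS.P0.ord (u₀ - 1) →
      LevelGT N (lam ^ p) u₀ →
      ∀ i, P i = NS.R i

/-- **(L) the level of a split Jacobi generator is at least the critical level.** -/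
def LevelStatement (N : NodalSetup K F k Fk₁ Fk₂ ι) (g : ℕ) (NS : NodalNS N g)
    (p : ℕ) (lam : K) : Prop :=
  ∀ P : Fin g → Place K F, (∀ i, N.r (P i) = some (NS.Rb i)) →
    ∀ u₀ : F, u₀ ≠ 0 →
      (∀ v : Place K F, v.ord u₀ =
        p * ∑ i, (Finsupp.single (P i) (1 : ℤ) v - Finsupp.single (NS.R i) (1 : ℤ) v)) →
      0 < NS.P0.ord (u₀ - 1) →
      IsSplitFn N p u₀ →
      LevelGE N (lam ^ p) u₀

/-- **(AS)**: an ordinary divisor of degree `0` with trivial reduction, `p D = div u` with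
`u ≡ 1 mod lam ^ p 𝔪` for both valuations, is principal. -/
def ASKeyStatement (N : NodalSetup K F k Fk₁ Fk₂ ι) (p : ℕ) (lam : K) : Prop :=
  ∀ D : Divisor K F, Divisor.degree D = 0 → N.RedTrivial D →
    ∀ u : F, u ≠ 0 → (∀ v : Place K F, v.ord u = p * D v) →
      LevelGT N (lam ^ p) u →
      D ∈ Divisor.principal (K := K) (F := F)

/-- **(R0) ordinary representatives with trivial reduction**: a function `g` with `p ∣ div g`
which is, for both valuations, a constant times a unit whose reduction is a `p`-th power, can be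
multiplied by a constant and a `p`-th power so that `(1/p) div` becomes ordinary with trivial
reduction and both reductions are `1`. -/
def OrdRepStatement (N : NodalSetup K F k Fk₁ Fk₂ ι) (p : ℕ) : Prop :=
  ∀ g : F, g ≠ 0 → (∀ P : Place K F, (p : ℤ) ∣ P.ord g) →
    (∃ c₁ : K, c₁ ≠ 0 ∧ ∃ h₁ : Fk₁, h₁ ≠ 0 ∧ N.S₁.red (g / algebraMap K F c₁) = h₁ ^ p) →
    (∃ c₂ : K, c₂ ≠ 0 ∧ ∃ h₂ : Fk₂, h₂ ≠ 0 ∧ N.S₂.red (g / algebraMap K F c₂) = h₂ ^ p) →
    ∃ (φ : F) (c : K) (D : Divisor K F), φ ≠ 0 ∧ c ≠ 0 ∧ Divisor.degree D = 0 ∧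
      N.RedTrivial D ∧
      (∀ v : Place K F, v.ord (algebraMap K F c * φ ^ p * g) = p * D v) ∧
      N.S₁.red (algebraMap K F c * φ ^ p * g) = 1 ∧
      N.S₂.red (algebraMap K F c * φ ^ p * g) = 1

/-- **(COV), function form**: an inertial automorphism `t` which multiplies the critical level
`δ = lam ^ p` by a unit congruent to the integer `e` acts on the split `p`-torsion classes by `e`. -/
def PCovStatement (N : NodalSetup K F k Fk₁ Fk₂ ι) (p : ℕ) (lam : K) : Prop :=
  ∀ t : SemilinearAut K F, N.IsInertial t →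
    ∀ e : ℕ, (SemilinearAut.baseAut t (lam ^ p) / lam ^ p - (e : K)) / lam ∈ N.S₁.A →
      ∀ g : F, g ≠ 0 → (∀ P : Place K F, (p : ℤ) ∣ P.ord g) → IsSplitFn N p g →
        ∃ (u : F) (c : K), c ≠ 0 ∧ u ^ p * g ^ e = algebraMap K F c * (t • g)

end Fermat.Agent.BadRed.PTor
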