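import Mathlib
import Fermat.Agent.Lib.BadRed.Nodal.KeyJacobi
import Fermat.Agent.Lib.BadRed.Nodal.Gluing.Inertia
import Fermat.Agent.Lib.BadRed.Nodal.P.Defs

set_option autoImplicit false

/-!
# S33-new (architect helper66), seat P-COV: inertia acts by `e` on split `p`-torsion classes

`pCov` : `PCovStatement N p lam` from `(R0)`, `(L)`, `(AS)` (the Props of `Nodal/P/Defs.lean`, taken
as hypotheses) and Jacobi inversion in the kernel of reduction (`NJ.nodalJacobi`).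

Proof (helper66's (COV), helper42's plan).  `g` split with `p ∣ div g`.
1. `(R0)`: `g₁ = c φ ^ p g` has `div g₁ = p D`, `D` ordinary of degree `0` with trivial reduction.
2. Jacobi: `D + div ψ = D' = ∑ (P i - R i)`; `u₁ = g₁ ψ ^ p`; normalise `u₀ = u₁ / c₁`,
   `u₀ = 1` or `u₀ (P0) = 1`.  `u₀` is split.
3. `(L)`: `E = (u₀ - 1) / δ` is integral for both valuations (`δ = lam ^ p`).
4. `w = t u₀ / u₀ ^ e` has divisor `p (t D' - e D')` and
   `(w - 1) / δ = ((e + lam a) t E - e E - δ E ^ 2 G) / u₀ ^ e` reduces to `0` for both valuations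
   (`t δ / δ = e + lam a`, `red (t E) = red E`).
5. `(AS)`: `t D' - e D' = div z`; hence `t u₀ = c₃ z ^ p u₀ ^ e` and
   `(z W ^ e / t W) ^ p g ^ e = c' t g` with `W = φ ψ`.
-/

noncomputable section

open AlgebraicCurve Fermat.Agent.RR Fermat.Agent.Deuring

namespace Fermat.Agent.BadRed.PCov

open Fermat.Agent.S18Key (kl_ord_const_mul kl_ord_mul_const kl_ord_div_const kl_ord_pow)

/-! ### algebra -/

/-- `(1 + x) ^ e = 1 + e x + x ^ 2 G` over a subring. -/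
theorem exists_one_add_pow {B : Type*} [CommRing B] (R : Subring B) {x : B} (hx : x ∈ R)
    (e : ℕ) : ∃ G ∈ R, (1 + x) ^ e = 1 + (e : B) * x + x ^ 2 * G := by
  induction e with
  | zero => exact ⟨0, zero_mem _, by simp⟩
  | succ n ih =>
    obtain ⟨G, hG, h⟩ := ih
    refine ⟨(n : B) + G + x * G, ?_, ?_⟩
    · exact add_mem (add_mem (natCast_mem R n) hG) (mul_mem hx hG)
    · rw [pow_succ, h]
      push_cast
      ring

/-! ### one valuation -/

section OneSide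

variable {K F k Fk : Type*} [Field K] [Field F] [Algebra K F] [Field k] [Field Fk] [Algebra k Fk]
  (S : ValSetup K F k Fk)

/-- `x` lies in the maximal ideal of the valuation ring of `S`. -/
def InM (x : F) : Prop := x ∈ S.Ov ∧ S.red x = 0

variable {S}

theorem InM.add' {x y : F} (hx : InM S x) (hy : InM S y) : InM S (x + y) :=
  ⟨add_mem hx.1 hy.1, by rw [S.red_add hx.1 hy.1, hx.2, hy.2, add_zero]⟩

theorem InM.sub' {x y : F} (hx : InM S x) (hy : InM S y) : InM S (x - y) :=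
  ⟨sub_mem hx.1 hy.1, by rw [S.red_sub hx.1 hy.1, hx.2, hy.2, sub_zero]⟩

theorem InM.mul_left' {x y : F} (hy : y ∈ S.Ov) (hx : InM S x) : InM S (y * x) :=
  ⟨mul_mem hy hx.1, by rw [S.red_mul hy hx.1, hx.2, mul_zero]⟩

theorem InM.mul_right' {x y : F} (hx : InM S x) (hy : y ∈ S.Ov) : InM S (x * y) :=
  ⟨mul_mem hx.1 hy, by rw [S.red_mul hx.1 hy, hx.2, zero_mul]⟩

theorem inM_algebraMap {c : K} (hc : c ∈ S.A) (hci : c⁻¹ ∉ S.A) : InM S (algebraMap K F c) := by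
  refine ⟨S.algebraMap_mem hc, ?_⟩
  rcases eq_or_ne c 0 with rfl | hc0
  · rw [map_zero]
    exact S.red_zero
  · have hne : algebraMap K F c ≠ 0 := by simpa using hc0
    rw [S.red_eq_zero_iff (S.algebraMap_mem hc) hne, ← map_inv₀, S.mem_Ov_iff]
    exact hci

/-- a `1`-unit of level `≥ δ`, `δ ∈ 𝔪_A`, is a unit with reduction `1`. -/
theorem red_eq_one_of_level {δ : K} (hδ0 : δ ≠ 0) (hδA : δ ∈ S.A) (hδi : δ⁻¹ ∉ S.A) {x : F}
    (h : (x - 1) / algebraMap K F δ ∈ S.Ov) : x ∈ S.Ov ∧ S.red x = 1 := by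
  have hδF : algebraMap K F δ ≠ 0 := by simpa using hδ0
  have hx : x = 1 + algebraMap K F δ * ((x - 1) / algebraMap K F δ) := by
    field_simp
    ring
  have hδM : InM S (algebraMap K F δ) := inM_algebraMap hδA hδi
  have hm := hδM.mul_right' h
  rw [hx]
  exact ⟨add_mem (one_mem _) hm.1, by rw [S.red_add (one_mem _) hm.1, S.red_one, hm.2, add_zero]⟩

/-- a split function satisfies the hypothesis of `(R0)`. -/
theorem r0hyp_of_split {p : ℕ} (hpA : (p : K) ∈ S.A) (hpi : ((p : K))⁻¹ ∉ S.A)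
    {g H : F} {c : K} (hH : H ≠ 0) (hc : c ≠ 0)
    (h : (g / (algebraMap K F c * H ^ p) - 1) / algebraMap K F ((p : K) ^ 2) ∈ S.Ov) :
    ∃ c₁ : K, c₁ ≠ 0 ∧ ∃ h₁ : Fk, h₁ ≠ 0 ∧ S.red (g / algebraMap K F c₁) = h₁ ^ p := by
  have hp0 : (p : K) ≠ 0 := by
    intro h0
    rw [h0, inv_zero] at hpi
    exact hpi (zero_mem _)
  have hp2i : ((p : K) ^ 2)⁻¹ ∉ S.A := by
    intro h2
    apply hpi
    have : ((p : K))⁻¹ = ((p : K) ^ 2)⁻¹ * (p : K) := by
      field_simp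
    rw [this]
    exact mul_mem h2 hpA
  obtain ⟨hxm, hxr⟩ := red_eq_one_of_level (S := S) (pow_ne_zero 2 hp0) (pow_mem hpA 2) hp2i h
  obtain ⟨c', hc', hH'⟩ := S.exists_scale hH
  have hH'm := S.mem_of_red_ne_zero hH'
  have hcF : algebraMap K F c ≠ 0 := by simpa using hc
  have hc'F : algebraMap K F c' ≠ 0 := by simpa using hc'
  refine ⟨c * c' ^ p, mul_ne_zero hc (pow_ne_zero _ hc'), S.red (c'⁻¹ • H), hH', ?_⟩
  have e1 : g / algebraMap K F (c * c' ^ p) =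
      g / (algebraMap K F c * H ^ p) * (c'⁻¹ • H) ^ p := by
    rw [Algebra.smul_def, map_mul, map_pow, map_inv₀, mul_pow, inv_pow]
    field_simp
  rw [e1, S.red_mul hxm (pow_mem hH'm p), hxr, one_mul, S.red_pow hH'm]

/-- the level of `t u₀ / u₀ ^ e` is `> δ` when `t δ / δ ≡ e` and `t` is inertial. -/
theorem levelGT_side (t : SemilinearAut K F) (hmem : ∀ f : F, f ∈ S.Ov → t • f ∈ S.Ov)
    (hred : ∀ f : F, f ∈ S.Ov → S.red (t • f) = S.red f)
    {δ lam : K} (hδ0 : δ ≠ 0) (hδA : δ ∈ S.A) (hδi : δ⁻¹ ∉ S.A)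
    (hl0 : lam ≠ 0) (hlA : lam ∈ S.A) (hli : lam⁻¹ ∉ S.A)
    (e : ℕ) (he : (SemilinearAut.baseAut t δ / δ - (e : K)) / lam ∈ S.A)
    {u₀ : F} (hE : (u₀ - 1) / algebraMap K F δ ∈ S.Ov) :
    InM S (((t • u₀) / u₀ ^ e - 1) / algebraMap K F δ) := by
  obtain ⟨hu₀m, hu₀r⟩ := red_eq_one_of_level (S := S) hδ0 hδA hδi hE
  have hδF : algebraMap K F δ ≠ 0 := by simpa using hδ0
  have hδM : InM S (algebraMap K F δ) := inM_algebraMap hδA hδi
  obtain ⟨E, hEdef⟩ : ∃ E : F, E = (u₀ - 1) / algebraMap K F δ := ⟨_, rfl⟩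
  rw [← hEdef] at hE
  have hu₀ : u₀ = 1 + algebraMap K F δ * E := by
    rw [hEdef]
    field_simp
    ring
  have hx : algebraMap K F δ * E ∈ S.Ov := mul_mem hδM.1 hE
  have hue_red : S.red (u₀ ^ e) = 1 := by rw [S.red_pow hu₀m, hu₀r, one_pow]
  have hue_ne : S.red (u₀ ^ e) ≠ 0 := by
    rw [hue_red]
    exact one_ne_zero
  have hue_inv : (u₀ ^ e)⁻¹ ∈ S.Ov := S.inv_mem_of_red_ne_zero hue_ne
  have hue0 : u₀ ^ e ≠ 0 := S.ne_zero_of_red_ne_zero hue_ne
  obtain ⟨G, hG, hpow⟩ := exists_one_add_pow S.Ov.toSubring hx e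
  obtain ⟨a, ha⟩ : ∃ a : K, a = (SemilinearAut.baseAut t δ / δ - (e : K)) / lam := ⟨_, rfl⟩
  rw [← ha] at he
  have htδ : SemilinearAut.baseAut t δ = δ * ((e : K) + lam * a) := by
    rw [ha]
    field_simp
    ring
  have htE : t • E ∈ S.Ov := hmem E hE
  have htu : t • u₀ = 1 + algebraMap K F δ * (((e : F) + algebraMap K F (lam * a)) * (t • E)) := by
    have h1 : t • u₀ = 1 + algebraMap K F (SemilinearAut.baseAut t δ) * (t • E) := by
      conv_lhs => rw [hu₀]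
      rw [smul_add, smul_one, smul_mul', SemilinearAut.smul_algebraMap]
    rw [h1, htδ, map_mul, map_add, map_natCast]
    ring
  have hue : u₀ ^ e = 1 + algebraMap K F δ * ((e : F) * E + algebraMap K F δ * (E ^ 2 * G)) := by
    conv_lhs => rw [hu₀]
    rw [hpow]
    ring
  have key : ((t • u₀) / u₀ ^ e - 1) / algebraMap K F δ =
      ((e : F) * (t • E - E) + algebraMap K F (lam * a) * (t • E) -
        algebraMap K F δ * (E ^ 2 * G)) * (u₀ ^ e)⁻¹ := by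
    rw [div_eq_iff hδF, eq_comm, eq_sub_iff_add_eq, eq_div_iff hue0, htu, add_mul, one_mul,
      mul_assoc, mul_assoc, mul_comm (u₀ ^ e)⁻¹, mul_assoc, mul_inv_cancel₀ hue0, mul_one, hue]
    ring
  rw [key]
  have h1 : InM S (t • E - E) := ⟨sub_mem htE hE, by rw [S.red_sub htE hE, hred E hE, sub_self]⟩
  have h2 : InM S (algebraMap K F (lam * a)) := by
    rw [map_mul]
    exact (inM_algebraMap hlA hli).mul_right' (S.algebraMap_mem he)
  exact (((h1.mul_left' (natCast_mem _ e)).add' (h2.mul_right' htE)).sub'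
    (hδM.mul_right' (mul_mem (pow_mem hE 2) hG))).mul_right' hue_inv

end OneSide

/-! ### the final algebra -/

/-- from `t u₀ = c₃ z ^ p u₀ ^ e` with `u₀ = c φ ^ p g ψ ^ p / c₁` to `u ^ p g ^ e = c' t g`. -/
theorem final_algebra {F : Type*} [Field F] {p e : ℕ} {z φ ψ g tφ tψ tg C C₁ tC tC₁ C₃ : F}
    (hφ : tφ ≠ 0) (hψ : tψ ≠ 0) (hC : C ≠ 0) (hC₁ : C₁ ≠ 0) (htC₁ : tC₁ ≠ 0) (hC₃ : C₃ ≠ 0)
    (hz : tC * tφ ^ p * tg * tψ ^ p / tC₁ = C₃ * z ^ p * (C * φ ^ p * g * ψ ^ p / C₁) ^ e) :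
    (z * φ ^ e * ψ ^ e / (tφ * tψ)) ^ p * g ^ e = tC / tC₁ / (C₃ * (C / C₁) ^ e) * tg := by
  have hX : tφ ^ p * tψ ^ p ≠ 0 := mul_ne_zero (pow_ne_zero _ hφ) (pow_ne_zero _ hψ)
  have hY : C₃ * (C / C₁) ^ e ≠ 0 := mul_ne_zero hC₃ (pow_ne_zero _ (div_ne_zero hC hC₁))
  have h1 : (z * φ ^ e * ψ ^ e / (tφ * tψ)) ^ p * g ^ e * (C₃ * (C / C₁) ^ e) * (tφ ^ p * tψ ^ p) =
      C₃ * z ^ p * (C * φ ^ p * g * ψ ^ p / C₁) ^ e := by
    rw [div_pow, div_pow, div_pow, mul_pow tφ, mul_pow, mul_pow, mul_pow, mul_pow, mul_pow,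
      ← pow_mul, ← pow_mul, ← pow_mul, ← pow_mul, mul_comm e p]
    field_simp
  have h2 : tC / tC₁ / (C₃ * (C / C₁) ^ e) * tg * (C₃ * (C / C₁) ^ e) * (tφ ^ p * tψ ^ p) =
      tC * tφ ^ p * tg * tψ ^ p / tC₁ := by
    field_simp
  have h3 := h1.trans (hz.symm.trans h2.symm)
  exact mul_right_cancel₀ hY (mul_right_cancel₀ hX h3)

/-! ### two valuations -/

section TwoSided

variable {K F k Fk₁ Fk₂ : Type*} [Field K] [Field F] [Algebra K F]
  [Field k] [Field Fk₁] [Algebra k Fk₁] [Field Fk₂] [Algebra k Fk₂] {ι : Type*}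
  {N : NodalSetup K F k Fk₁ Fk₂ ι} {g : ℕ}

open Fermat.Agent.BadRed.PTor

theorem jacobiDiv_apply (NS : NodalNS N g) (P : Fin g → Place K F) (v : Place K F) :
    jacobiDiv NS P v =
      ∑ i, (Finsupp.single (P i) (1 : ℤ) v - Finsupp.single (NS.R i) (1 : ℤ) v) := by
  unfold jacobiDiv
  rw [Finsupp.finsetSum_apply]
  simp only [Finsupp.sub_apply]

theorem jacobiDiv_apply_of_ne (NS : NodalNS N g) (P : Fin g → Place K F)
    (hP : ∀ i, N.r (P i) = some (NS.Rb i)) {v : Place K F}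
    (hv : ∀ i, N.r v ≠ some (NS.Rb i)) : jacobiDiv NS P v = 0 := by
  rw [jacobiDiv_apply]
  apply Finset.sum_eq_zero
  intro i _
  have h1 : v ≠ P i := fun e => hv i (by rw [e]; exact hP i)
  have h2 : v ≠ NS.R i := fun e => hv i (by rw [e]; exact NS.r_R i)
  rw [Finsupp.single_eq_of_ne h1, Finsupp.single_eq_of_ne h2, sub_self]

theorem jacobiDiv_isOrdDiv (NS : NodalNS N g) (P : Fin g → Place K F)
    (hP : ∀ i, N.r (P i) = some (NS.Rb i)) : N.IsOrdDiv (jacobiDiv NS P) := by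
  intro v hv
  by_contra hno
  apply hv
  apply jacobiDiv_apply_of_ne NS P hP
  intro i hi
  exact hno ⟨_, hi⟩

theorem jacobiDiv_mapDomain (NS : NodalNS N g) (P : Fin g → Place K F)
    (hP : ∀ i, N.r (P i) = some (NS.Rb i)) :
    Finsupp.mapDomain N.r (jacobiDiv NS P) = 0 := by
  unfold jacobiDiv
  rw [Finsupp.mapDomain_finsetSum]
  apply Finset.sum_eq_zero
  intro i _
  rw [sub_eq_add_neg, ← Finsupp.single_neg, Finsupp.mapDomain_add, Finsupp.mapDomain_single,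
    Finsupp.mapDomain_single, hP i, NS.r_R i, Finsupp.single_neg, add_neg_cancel]

/-- **(COV)** inertial automorphisms `t` with `t δ / δ ≡ e` act on the split `p`-torsion classes
by `e`, from `(R0)`, `(L)`, `(AS)` and Jacobi inversion. -/
theorem pCov (N : NodalSetup K F k Fk₁ Fk₂ ι) (NS : NodalNS N (genusFF K F)) (p : ℕ) (lam : K)
    (h : IsCycloUnif N p lam) (hR0 : OrdRepStatement N p)
    (hL : LevelStatement N (genusFF K F) NS p lam) (hAS : ASKeyStatement N p lam) :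
    PCovStatement N p lam := by
  classical
  intro t ht e he g hg0 hdvd hsplit
  have hp := h.prime
  have hp0 := h.p_ne_zero
  have hA₂ : ∀ c : K, c ∈ N.S₂.A ↔ c ∈ N.S₁.A := fun c => by rw [N.A_eq]
  -- `p`, `δ ∈ 𝔪_A`
  have hpA : (p : K) ∈ N.S₁.A := natCast_mem _ p
  have hpi : ((p : K))⁻¹ ∉ N.S₁.A := by
    intro hinv
    apply h.inv_not_mem
    have h1 : p - 1 = (p - 2) + 1 := by
      have := hp.two_le
      omega
    have h2 : lam⁻¹ = (p : K)⁻¹ * ((p : K) / lam ^ (p - 1)) * lam ^ (p - 2) := by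
      rw [h1, pow_succ]
      have := h.ne_zero
      field_simp
    rw [h2]
    exact mul_mem (mul_mem hinv h.kappa_mem) (pow_mem h.mem _)
  have hδ0 : lam ^ p ≠ 0 := pow_ne_zero _ h.ne_zero
  have hδA : lam ^ p ∈ N.S₁.A := pow_mem h.mem _
  have hδi : (lam ^ p)⁻¹ ∉ N.S₁.A := by
    intro hinv
    apply h.inv_not_mem
    have h2 : lam⁻¹ = (lam ^ p)⁻¹ * lam ^ (p - 1) := by
      rw [eq_comm, inv_mul_eq_iff_eq_mul₀ hδ0, ← pow_sub_one_mul hp.ne_zero lam, mul_assoc,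
        mul_inv_cancel₀ h.ne_zero, mul_one]
    rw [h2]
    exact mul_mem hinv (pow_mem h.mem _)
  -- (R0) and Jacobi
  obtain ⟨⟨H₁, d₁, hH₁, hd₁, hs₁⟩, ⟨H₂, d₂, hH₂, hd₂, hs₂⟩⟩ := hsplit
  have hr1 := r0hyp_of_split (S := N.S₁) hpA hpi hH₁ hd₁ hs₁
  have hr2 := r0hyp_of_split (S := N.S₂) ((hA₂ _).mpr hpA) (fun hh => hpi ((hA₂ _).mp hh))
    hH₂ hd₂ hs₂
  obtain ⟨φ, c, D, hφ0, hc0, hdeg, hredD, hordg₁, -, -⟩ := hR0 g hg0 hdvd hr1 hr2
  obtain ⟨ψ, P, hψ0, hP, hE⟩ := NJ.nodalJacobi N (genusFF K F) NS rfl D hdeg hredD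
  have hcF : algebraMap K F c ≠ 0 := by simpa using hc0
  have hg₁0 : algebraMap K F c * φ ^ p * g ≠ 0 :=
    mul_ne_zero (mul_ne_zero hcF (pow_ne_zero _ hφ0)) hg0
  obtain ⟨u₁, hu₁⟩ : ∃ u₁ : F, u₁ = algebraMap K F c * φ ^ p * g * ψ ^ p := ⟨_, rfl⟩
  have hu₁0 : u₁ ≠ 0 := by
    rw [hu₁]
    exact mul_ne_zero hg₁0 (pow_ne_zero _ hψ0)
  have hJ : ∀ v, jacobiDiv NS P v = D v + v.ord ψ := fun v => by rw [jacobiDiv_apply, hE v]
  have hu₁div : ∀ v : Place K F, v.ord u₁ = p * jacobiDiv NS P v := by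
    intro v
    rw [hu₁, v.ord_mul hg₁0 (pow_ne_zero _ hψ0), hordg₁ v, kl_ord_pow, hJ]
    ring
  have hoff : ∀ v, (∀ j ∈ (Finset.univ : Finset (Fin (genusFF K F))),
      N.r v ≠ some (NS.Rb j)) → v.ord u₁ = 0 := by
    intro v hv
    rw [hu₁div, jacobiDiv_apply_of_ne NS P hP (fun i => hv i (Finset.mem_univ i)), mul_zero]
  have hdisc : ∀ j ∈ (Finset.univ : Finset (Fin (genusFF K F))),
      Finsupp.mapDomain N.r (divOf N.S₁.hF u₁) (some (NS.Rb j)) = 0 := by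
    intro j _
    have hD : divOf N.S₁.hF u₁ = (p : ℤ) • jacobiDiv NS P := by
      ext v
      rw [divOf_apply, hu₁div, Finsupp.smul_apply, smul_eq_mul]
    rw [hD, Finsupp.mapDomain_smul, jacobiDiv_mapDomain NS P hP, smul_zero]
    rfl
  obtain ⟨c₁, hc₁0, -, hval⟩ := NK.kl_normalise₂ NS Finset.univ hu₁0 hoff hdisc
  have hc₁F : algebraMap K F c₁ ≠ 0 := by simpa using hc₁0
  obtain ⟨u₀, hu₀def⟩ : ∃ u₀ : F, u₀ = u₁ / algebraMap K F c₁ := ⟨_, rfl⟩
  rw [← hu₀def] at hval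
  have hu₀0 : u₀ ≠ 0 := by
    rw [hu₀def]
    exact div_ne_zero hu₁0 hc₁F
  have hu₀div : ∀ v : Place K F, v.ord u₀ = p * jacobiDiv NS P v := fun v => by
    rw [hu₀def, kl_ord_div_const v hc₁0, hu₁div]
  -- the main claim
  have hstar : ∃ (z : F) (c₃ : K), c₃ ≠ 0 ∧ t • u₀ = algebraMap K F c₃ * z ^ p * u₀ ^ e := by
    rcases hval with h1 | hpos
    · refine ⟨1, 1, one_ne_zero, ?_⟩
      rw [h1, smul_one, map_one, one_pow, one_pow, mul_one, mul_one]
    · -- `u₀` is split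
      have hd₁F : algebraMap K F d₁ ≠ 0 := by simpa using hd₁
      have hd₂F : algebraMap K F d₂ ≠ 0 := by simpa using hd₂
      have hsplit₀ : IsSplitFn N p u₀ := by
        refine ⟨⟨φ * ψ * H₁, c * d₁ / c₁, mul_ne_zero (mul_ne_zero hφ0 hψ0) hH₁,
          div_ne_zero (mul_ne_zero hc0 hd₁) hc₁0, ?_⟩,
          ⟨φ * ψ * H₂, c * d₂ / c₁, mul_ne_zero (mul_ne_zero hφ0 hψ0) hH₂,
          div_ne_zero (mul_ne_zero hc0 hd₂) hc₁0, ?_⟩⟩
        · have e1 : u₀ / (algebraMap K F (c * d₁ / c₁) * (φ * ψ * H₁) ^ p) =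
              g / (algebraMap K F d₁ * H₁ ^ p) := by
            rw [hu₀def, hu₁, map_div₀, map_mul, mul_pow, mul_pow]
            field_simp
          rw [e1]
          exact hs₁
        · have e1 : u₀ / (algebraMap K F (c * d₂ / c₁) * (φ * ψ * H₂) ^ p) =
              g / (algebraMap K F d₂ * H₂ ^ p) := by
            rw [hu₀def, hu₁, map_div₀, map_mul, mul_pow, mul_pow]
            field_simp
          rw [e1]
          exact hs₂
      have hlev : LevelGE N (lam ^ p) u₀ :=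
        hL P hP u₀ hu₀0 (fun v => by rw [hu₀div, jacobiDiv_apply]) hpos hsplit₀
      -- the divisor `t D' - e D'`
      have hD'deg : Divisor.degree (jacobiDiv NS P) = 0 := by
        have e1 : jacobiDiv NS P = D + divOf N.S₁.hF ψ := by
          ext v
          rw [Finsupp.add_apply, divOf_apply, hJ]
        rw [e1, map_add, hdeg, degree_divOf, add_zero]
      have hD'ord := jacobiDiv_isOrdDiv NS P hP
      obtain ⟨D'', hD''⟩ : ∃ D'' : Divisor K F, D'' = t • jacobiDiv NS P - e • jacobiDiv NS P :=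
        ⟨_, rfl⟩
      have hdeg'' : Divisor.degree D'' = 0 := by
        rw [hD'', map_sub, SemilinearAut.degree_smul, map_nsmul, hD'deg, smul_zero, sub_zero]
      have hred'' : N.RedTrivial D'' := by
        rw [hD'']
        refine ⟨Gluing.isOrdDiv_sub N (Gluing.inertia_isOrdDiv_smul N ht hD'ord) ?_, fun Q => ?_⟩
        · intro v hv
          apply hD'ord v
          intro h0
          apply hv
          rw [Finsupp.smul_apply, h0, smul_zero]
        · rw [Gluing.mapDomain_sub', Gluing.inertia_mapDomain_smul N ht,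
            Gluing.mapDomain_nsmul', jacobiDiv_mapDomain NS P hP, smul_zero, sub_zero]
          rfl
      -- the function `w = t u₀ / u₀ ^ e`
      have htu₀0 : t • u₀ ≠ 0 := by
        rw [SemilinearAut.smul_def]
        exact (map_ne_zero _).mpr hu₀0
      have hue0 : u₀ ^ e ≠ 0 := pow_ne_zero _ hu₀0
      have hw0 : (t • u₀) / u₀ ^ e ≠ 0 := div_ne_zero htu₀0 hue0
      have hwdiv : ∀ v : Place K F, v.ord ((t • u₀) / u₀ ^ e) = p * D'' v := by
        intro v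
        rw [div_eq_mul_inv, v.ord_mul htu₀0 (inv_ne_zero hue0), v.ord_inv, kl_ord_pow,
          Gluing.inertia_ord_smul, hu₀div, hu₀div, hD'', Finsupp.sub_apply,
          SemilinearAut.divisor_smul_apply, Finsupp.smul_apply]
        simp only [nsmul_eq_mul]
        push_cast
        ring
      have hwlev : LevelGT N (lam ^ p) ((t • u₀) / u₀ ^ e) :=
        ⟨levelGT_side (S := N.S₁) t ht.mem₁ ht.red₁ hδ0 hδA hδi h.ne_zero h.mem h.inv_not_mem e he
          hlev.1,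
        levelGT_side (S := N.S₂) t ht.mem₂ ht.red₂ hδ0 ((hA₂ _).mpr hδA)
          (fun hh => hδi ((hA₂ _).mp hh)) h.ne_zero ((hA₂ _).mpr h.mem)
          (fun hh => h.inv_not_mem ((hA₂ _).mp hh)) e ((hA₂ _).mpr he) hlev.2⟩
      obtain ⟨z, hz0, hzD⟩ := hAS D'' hdeg'' hred'' _ hw0 hwdiv hwlev
      have hzp0 : z ^ p ≠ 0 := pow_ne_zero _ hz0
      obtain ⟨c₃, hc₃0, hc₃⟩ := Gluing.inertia_exists_const N.S₁.hF
        (div_ne_zero hw0 hzp0) (fun v => by
          rw [div_eq_mul_inv, v.ord_mul hw0 (inv_ne_zero hzp0), v.ord_inv, kl_ord_pow, hwdiv,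
            hzD v]
          ring)
      refine ⟨z, c₃, hc₃0, ?_⟩
      rw [← hc₃]
      field_simp
  -- conclusion
  obtain ⟨z, c₃, hc₃0, hz⟩ := hstar
  have htφ0 : t • φ ≠ 0 := by
    rw [SemilinearAut.smul_def]
    exact (map_ne_zero _).mpr hφ0
  have htψ0 : t • ψ ≠ 0 := by
    rw [SemilinearAut.smul_def]
    exact (map_ne_zero _).mpr hψ0
  have htc₁0 : SemilinearAut.baseAut t c₁ ≠ 0 := (map_ne_zero _).mpr hc₁0
  have htc₁F : algebraMap K F (SemilinearAut.baseAut t c₁) ≠ 0 := by simpa using htc₁0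
  have hc₃F : algebraMap K F c₃ ≠ 0 := by simpa using hc₃0
  have htu : t • u₀ = algebraMap K F (SemilinearAut.baseAut t c) * (t • φ) ^ p * (t • g) *
      (t • ψ) ^ p / algebraMap K F (SemilinearAut.baseAut t c₁) := by
    rw [hu₀def, hu₁]
    simp only [SemilinearAut.smul_def, map_div₀, map_mul, map_pow, SemilinearAut.commutes]
  rw [htu, hu₀def, hu₁] at hz
  refine ⟨z * φ ^ e * ψ ^ e / ((t • φ) * (t • ψ)),
    SemilinearAut.baseAut t c / SemilinearAut.baseAut t c₁ / (c₃ * (c / c₁) ^ e), ?_, ?_⟩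
  · exact div_ne_zero (div_ne_zero ((map_ne_zero _).mpr hc0) htc₁0)
      (mul_ne_zero hc₃0 (pow_ne_zero _ (div_ne_zero hc0 hc₁0)))
  · rw [map_div₀, map_div₀, map_mul, map_pow, map_div₀]
    exact final_algebra htφ0 htψ0 hcF hc₁F htc₁F hc₃F hz

end TwoSided

end Fermat.Agent.BadRed.PCov
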