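import Mathlib
import Fermat.Agent.Lib.BadRed.Nodal.KeyMain
import Fermat.Agent.Lib.BadRed.Nodal.P.Defs

set_option autoImplicit false

/-!
# Cluster T / S33-new, seat P-HL (helper12): the HIGH-LEVEL nodal key lemma for the exponent `p`

Residue characteristic `p` (`p` is in the maximal ideal of `A`).  Design: helper66's note
"S33-new, elementary proof of COV", step (HL).

`kl_main_p`: let `u₀` have divisor `p * ∑ (P i - R i)` with `P i` in the residue disc of `Rb i`,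
`u₀(P0) = 1`, and suppose that `u₀ - 1` has level `> p / (p - 1)`:
`(u₀ - 1) / d` is integral for both valuations for a constant `d` with `v(d) > p / (p - 1)`
(i.e. `d ^ (p - 1) / p ^ p` is in the maximal ideal of `A`).  Then `P i = R i` for all `i`.

Proof.  `a_i = t_i(P_i)`, `a = a_*` of maximal absolute value, `∏ t_i / (t_i - a_i) = 1 + a Ξ`,
`red Ξ = ∑ c̄_i / t̄_i` (simple pole at `Rb_*`), `V = (1 + a Ξ) ^ p`.
* (A) `v(a) > 1 / (p - 1)`: `V = 1 + (p a) Y`, `red Y = red Ξ`, and `kl_core₂` applies verbatim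
  (the level is not used: `kl_main_p_of_small`).
* (B) `v(a) ≤ 1 / (p - 1)`: `V = 1 + a ^ p Z`, `red Z = (red Ξ) ^ p + κ̄ red Ξ` has a pole of
  order `p` at `Rb_*`; `(u₀ V - 1) / a ^ p` has the same reduction (level `> p / (p - 1)`), but
  `u₀ V` has neither zero nor pole on the disc of `Rb_*`: contradiction with `push`.
-/

noncomputable section

open AlgebraicCurve Fermat.Agent.RR Fermat.Agent.Deuring

namespace Fermat.Agent.BadRed

namespace NKP

open NK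
open Fermat.Agent.S18Key (ord_neg' ord_nonneg_add ord_nonneg_sub ord_nonneg_mul ord_const_nonneg
  ord_one_nonneg ord_add_ge_of_ge ord_add_eq_of_lt mapDomain_apply_eq_sum sum_le_mapDomain
  mapDomain_nonneg le_mapDomain add_le_mapDomain kl_ord_const_mul kl_ord_mul_const
  kl_ord_div_const kl_ord_sum_ge kl_ord_prod kl_ord_pow kl_ord_sub_ge_of_ge
  kl_ne_zero_of_ord_ne_zero kl_const_eq_zero_of_ord_pos)

/-! ### pure algebra -/

/-- `(1 + z) ^ p = 1 + p z + p z² w + z ^ p` with `w` in any subring containing `z`. -/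
theorem exists_binom_prime {B : Type*} [CommRing B] (R : Subring B) {p : ℕ} (hp : p.Prime)
    {z : B} (hz : z ∈ R) :
    ∃ w ∈ R, (1 + z) ^ p = 1 + (p : B) * z + (p : B) * z ^ 2 * w + z ^ p := by
  classical
  have h2 := hp.two_le
  have hmem : p - 1 ∈ Finset.Ioo 0 p := Finset.mem_Ioo.mpr ⟨by omega, by omega⟩
  refine ⟨∑ k ∈ (Finset.Ioo 0 p).erase (p - 1), z ^ (p - k - 2) * ((p.choose k / p : ℕ) : B),
    sum_mem fun k _ => mul_mem (pow_mem hz _) (natCast_mem _ _), ?_⟩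
  rw [add_pow_prime_eq' hp (1 : B) z, one_pow, ← Finset.add_sum_erase _ _ hmem]
  have e1 : p - (p - 1) = 1 := by omega
  have e2 : p.choose (p - 1) / p = 1 := by
    rw [Nat.choose_symm (by omega : 1 ≤ p), Nat.choose_one_right, Nat.div_self hp.pos]
  have e3 : ∑ k ∈ (Finset.Ioo 0 p).erase (p - 1),
      (1 : B) ^ k * z ^ (p - k) * ((p.choose k / p : ℕ) : B) =
      z ^ 2 * ∑ k ∈ (Finset.Ioo 0 p).erase (p - 1),
        z ^ (p - k - 2) * ((p.choose k / p : ℕ) : B) := by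
    rw [Finset.mul_sum]
    refine Finset.sum_congr rfl fun k hk => ?_
    obtain ⟨hk1, hk2⟩ := Finset.mem_erase.mp hk
    obtain ⟨hk3, hk4⟩ := Finset.mem_Ioo.mp hk2
    have e : p - k = 2 + (p - k - 2) := by omega
    rw [one_pow, one_mul]
    conv_lhs => rw [e, pow_add]
    ring
  rw [e1, e2, e3, one_pow, pow_one, Nat.cast_one, mul_one, one_mul]
  ring

/-- strict ultrametric equality. -/
theorem ord_add_eq_of_ord_lt {K' F' : Type*} [Field K'] [Field F'] [Algebra K' F']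
    (v : Place K' F') {f g : F'} (hf0 : f ≠ 0) (h : g ≠ 0 → v.ord f < v.ord g) :
    v.ord (f + g) = v.ord f := by
  by_cases hg0 : g = 0
  · rw [hg0, add_zero]
  have h' := h hg0
  have hfg : f + g ≠ 0 := by
    intro h0
    have : f = -g := eq_neg_of_add_eq_zero_left h0
    rw [this, ord_neg'] at h'
    exact lt_irrefl _ h'
  have h1 := Fermat.Agent.S24Res.ord_add_ge v hf0 hg0 hfg
  have h2 := Fermat.Agent.S24Res.ord_add_ge v hfg (neg_ne_zero.mpr hg0)
    (by rw [add_neg_cancel_right]; exact hf0)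
  rw [add_neg_cancel_right, ord_neg'] at h2
  rw [min_eq_left h'.le] at h1
  rcases le_total (v.ord (f + g)) (v.ord g) with h3 | h3
  · rw [min_eq_left h3] at h2
    omega
  · rw [min_eq_right h3] at h2
    omega

/-! ### constants -/

section Const

variable {K : Type*} [Field K] (A : ValuationSubring K)

/-- `x` is in the maximal ideal. -/
def InMax (x : K) : Prop := x ∈ A ∧ x⁻¹ ∉ A

variable {A}

theorem InMax.mul_right {x y : K} (hx : InMax A x) (hy : y ∈ A) (hxy : x * y ≠ 0) :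
    InMax A (x * y) := by
  refine ⟨mul_mem hx.1 hy, fun h => hx.2 ?_⟩
  have hx0 : x ≠ 0 := left_ne_zero_of_mul hxy
  have hy0 : y ≠ 0 := right_ne_zero_of_mul hxy
  have e : x⁻¹ = (x * y)⁻¹ * y := by
    field_simp
  rw [e]
  exact mul_mem h hy

theorem InMax.pow {x : K} (hx : InMax A x) {n : ℕ} (hn : n ≠ 0) : InMax A (x ^ n) := by
  refine ⟨pow_mem hx.1 n, fun h => hx.2 ?_⟩
  obtain ⟨m, rfl⟩ := Nat.exists_eq_succ_of_ne_zero hn
  by_cases hx0 : x = 0
  · rw [hx0, inv_zero]; exact zero_mem _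
  have e : x⁻¹ = (x ^ (m + 1))⁻¹ * x ^ m := by
    rw [pow_succ]
    field_simp
  rw [e]
  exact mul_mem h (pow_mem hx.1 m)

theorem InMax.of_pow {x : K} {n : ℕ} (hx : InMax A (x ^ n)) : InMax A x := by
  have hxi : x⁻¹ ∉ A := fun h => hx.2 (by rw [← inv_pow]; exact pow_mem h n)
  exact ⟨(A.mem_or_inv_mem x).resolve_right hxi, hxi⟩

end Const


/-! ### one-sided computations -/

section OneSide

variable {K F k : Type*} [Field K] [Field F] [Algebra K F] [Field k]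
  {Fk X : Type*} [Field Fk] [Algebra k Fk] {S : NSide K F k Fk X}

/-- adding an element of `m Ov` does not change the reduction. -/
theorem red_add_const_mul {Y W : F} {c : K} (hY : Y ∈ S.Ov) (hW : W ∈ S.Ov) (hc : c ∈ S.A)
    (hci : c⁻¹ ∉ S.A) :
    Y + algebraMap K F c * W ∈ S.Ov ∧ S.red (Y + algebraMap K F c * W) = S.red Y := by
  have hcO : algebraMap K F c ∈ S.Ov := (const_mem_iff c).mpr hc
  refine ⟨add_mem hY (mul_mem hcO hW), ?_⟩
  rw [red_add hY (mul_mem hcO hW), red_mul hcO hW, kl_red_const_eq_zero hc hci, zero_mul,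
    add_zero]

/-- case (B): the reduction of `Z = Ξ ^ p + κ Ξ + (κ a) W` has a pole of order `p`. -/
theorem ord_red_Z (Q : Place k Fk) {Ξ W : F} {κ a : K} {p : ℕ} (hp2 : 2 ≤ p)
    (hΞ : Ξ ∈ S.Ov) (hW : W ∈ S.Ov) (hκ : κ ∈ S.A) (haA : a ∈ S.A) (hai : a⁻¹ ∉ S.A)
    (hord : Q.ord (S.red Ξ) = -1) :
    Ξ ^ p + algebraMap K F κ * Ξ + algebraMap K F (κ * a) * W ∈ S.Ov ∧
      Q.ord (S.red (Ξ ^ p + algebraMap K F κ * Ξ + algebraMap K F (κ * a) * W)) = -(p : ℤ) := by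
  have hκO : algebraMap K F κ ∈ S.Ov := (const_mem_iff κ).mpr hκ
  have haO : algebraMap K F a ∈ S.Ov := (const_mem_iff a).mpr haA
  have h1 : Ξ ^ p + algebraMap K F κ * Ξ ∈ S.Ov := add_mem (pow_mem hΞ p) (mul_mem hκO hΞ)
  have e : algebraMap K F (κ * a) * W = algebraMap K F a * (algebraMap K F κ * W) := by
    rw [map_mul]; ring
  rw [e]
  obtain ⟨h2, h3⟩ := red_add_const_mul (S := S) h1 (mul_mem hκO hW) haA hai
  refine ⟨h2, ?_⟩
  rw [h3, red_add (pow_mem hΞ p) (mul_mem hκO hΞ), red_pow hΞ, red_mul hκO hΞ]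
  have hΞ0 : S.red Ξ ≠ 0 := by
    intro h0
    rw [h0, Place.ord_zero] at hord
    omega
  have hpow : Q.ord (S.red Ξ ^ p) = -(p : ℤ) := by
    rw [kl_ord_pow, hord]; ring
  rw [ord_add_eq_of_ord_lt Q (pow_ne_zero p hΞ0), hpow]
  intro hg0
  rw [hpow]
  rcases kl_ord_red_const_mul (S := S) Q hκ (S.red Ξ) with h | h
  · exact absurd h hg0
  · rw [h, hord]
    have : (2 : ℤ) ≤ (p : ℤ) := by exact_mod_cast hp2
    omega

/-- case (B): the reduction of `(u V - 1) / a ^ p`. -/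
theorem red_quot_B {u V Z : F} {d q : K} (hd0 : d ≠ 0) (hq0 : q ≠ 0)
    (hlev : (u - 1) / algebraMap K F d ∈ S.Ov) (hV : V = 1 + algebraMap K F q * Z)
    (hZ : Z ∈ S.Ov) (hqA : q ∈ S.A) (he : d / q ∈ S.A) (hei : (d / q)⁻¹ ∉ S.A) :
    (u * V - 1) / algebraMap K F q ∈ S.Ov ∧
      S.red ((u * V - 1) / algebraMap K F q) = S.red Z := by
  have hdF : algebraMap K F d ≠ 0 := by simpa using hd0
  have hqF : algebraMap K F q ≠ 0 := by simpa using hq0
  have hVO : V ∈ S.Ov := by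
    rw [hV]
    exact add_mem (one_mem _) (mul_mem ((const_mem_iff q).mpr hqA) hZ)
  have e : (u * V - 1) / algebraMap K F q =
      Z + algebraMap K F (d / q) * ((u - 1) / algebraMap K F d * V) := by
    rw [hV, map_div₀]
    field_simp
    ring
  rw [e]
  exact red_add_const_mul (S := S) hZ (mul_mem hlev hVO) he hei

/-- if `x / δ` is in the maximal ideal of `Ov` and `x / c` is a unit, then `c / δ` is in the
maximal ideal of `A`. -/
theorem inMax_div_of_red_eq_zero {x : F} {c δ : K} (hc0 : c ≠ 0) (hδ0 : δ ≠ 0)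
    (h1 : x / algebraMap K F δ ∈ S.Ov) (h2 : S.red (x / algebraMap K F δ) = 0)
    (h3 : x / algebraMap K F c ∈ S.Ov) (h4 : S.red (x / algebraMap K F c) ≠ 0) :
    InMax S.A (c / δ) := by
  have hδF : algebraMap K F δ ≠ 0 := by simpa using hδ0
  have hcF : algebraMap K F c ≠ 0 := by simpa using hc0
  have hcδ0 : c / δ ≠ 0 := div_ne_zero hc0 hδ0
  have hU : S.IsU (x / algebraMap K F c) := isU_of_red_ne_zero h3 h4
  have hx0 : x ≠ 0 := by
    intro h0
    apply hU.ne_zero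
    rw [h0, zero_div]
  have e : algebraMap K F (c / δ) =
      x / algebraMap K F δ * (x / algebraMap K F c)⁻¹ := by
    rw [map_div₀]
    field_simp
  have hm : algebraMap K F (c / δ) ∈ S.Ov := by
    rw [e]; exact mul_mem h1 hU.inv_mem
  have hr : S.red (algebraMap K F (c / δ)) = 0 := by
    rw [e, red_mul h1 hU.inv_mem, h2, zero_mul]
  have hA : c / δ ∈ S.A := (const_mem_iff _).mp hm
  exact ⟨hA, fun hi => kl_red_const_ne_zero (S := S) hcδ0 hA hi hr⟩

end OneSide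


/-! ### the local data of a Jacobi-form divisor -/

section Main

variable {K F k Fk₁ Fk₂ : Type*} [Field K] [Field F] [Algebra K F]
  [Field k] [Field Fk₁] [Algebra k Fk₁] [Field Fk₂] [Algebra k Fk₂] {ι : Type*}
  {N : NodalSetup K F k Fk₁ Fk₂ ι} {g : ℕ}

/-- **local data** (first half of `NK.kl_main₂`, for any exponent `m ≠ 0`): if
`div u₀ = m ∑ (P i - R i)` and some `P i ≠ R i`, there are `a` in the maximal ideal of `A` and
`Ξ` integral for both valuations, whose reductions have at most simple poles at the `Rb j` and a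
simple pole at one `Rb istar`, such that `u₀ (1 + a Ξ) ^ m` has neither zero nor pole on the discs
of the `Rb j`, `j ∈ I`; `u₀` has neither zero nor pole outside these discs. -/
theorem exists_local_data (NS : NodalNS N g) (m : ℕ) (hm : m ≠ 0)
    (P : Fin g → Place K F) (hP : ∀ i, N.r (P i) = some (NS.Rb i))
    (u₀ : F) (hu₀ : u₀ ≠ 0)
    (hdiv : ∀ v : Place K F, v.ord u₀ =
      m * ∑ i, (Finsupp.single (P i) (1 : ℤ) v - Finsupp.single (NS.R i) (1 : ℤ) v))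
    (hcon : ¬ ∀ i, P i = NS.R i) :
    ∃ (I : Finset (Fin g)) (istar : Fin g) (a : K) (Ξ : F),
      istar ∈ I ∧ a ≠ 0 ∧ a ∈ N.S₁.A ∧ a⁻¹ ∉ N.S₁.A ∧ Ξ ∈ N.S₁.Ov ∧ Ξ ∈ N.S₂.Ov ∧
      (∀ j ∈ I, -1 ≤ ordRed N (NS.Rb j) Ξ) ∧ ordRed N (NS.Rb istar) Ξ = -1 ∧
      (∀ v, (∀ j ∈ I, N.r v ≠ some (NS.Rb j)) → v.ord u₀ = 0) ∧
      (∀ j ∈ I, ∀ v, N.r v = some (NS.Rb j) →
        v.ord (u₀ * (1 + algebraMap K F a * Ξ) ^ m) = 0) ∧
      u₀ ≠ 1 := by
  classical
  obtain ⟨i₀, hi₀⟩ := not_forall.mp hcon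
  set I : Finset (Fin g) := Finset.univ.filter fun i => P i ≠ NS.R i with hI
  have hmemI : ∀ i, i ∈ I ↔ P i ≠ NS.R i := fun i => by simp [hI]
  have hIne : I.Nonempty := ⟨i₀, (hmemI i₀).mpr hi₀⟩
  -- the divisor of u₀
  have hterm : ∀ (v : Place K F) (i : Fin g), (i ∉ I ∨ N.r v ≠ some (NS.Rb i)) →
      Finsupp.single (P i) (1 : ℤ) v - Finsupp.single (NS.R i) (1 : ℤ) v = 0 := by
    intro v i h
    rcases h with h | h
    · have : P i = NS.R i := by
        by_contra h'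
        exact h ((hmemI i).mpr h')
      rw [this, sub_self]
    · have h1 : v ≠ P i := fun e => h (by rw [e]; exact hP i)
      have h2 : v ≠ NS.R i := fun e => h (by rw [e]; exact NS.r_R i)
      rw [Finsupp.single_eq_of_ne h1, Finsupp.single_eq_of_ne h2, sub_self]
  have hH1 : ∀ v, (∀ j ∈ I, N.r v ≠ some (NS.Rb j)) → v.ord u₀ = 0 := by
    intro v hv
    rw [hdiv, Finset.sum_eq_zero, mul_zero]
    intro i _
    apply hterm
    by_cases hi : i ∈ I
    · exact Or.inr (hv i hi)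
    · exact Or.inl hi
  have hH2 : ∀ j ∈ I, ∀ v, N.r v = some (NS.Rb j) → v.ord u₀ =
      m * (Finsupp.single (P j) (1 : ℤ) v - Finsupp.single (NS.R j) (1 : ℤ) v) := by
    intro j _ v hv
    rw [hdiv, Finset.sum_eq_single j]
    · intro i _ hij
      apply hterm
      right
      rw [hv]
      exact fun e => hij (NS.Rb_inj (Option.some.inj e)).symm
    · intro h
      exact absurd (Finset.mem_univ j) h
  have hmZ : (m : ℤ) ≠ 0 := by exact_mod_cast hm
  have hu1 : u₀ ≠ 1 := by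
    intro h1
    have := hH2 i₀ ((hmemI i₀).mpr hi₀) (P i₀) (hP i₀)
    rw [h1, Place.ord_one, Finsupp.single_eq_same, Finsupp.single_eq_of_ne hi₀,
      sub_zero, mul_one] at this
    exact hmZ this.symm
  -- local data
  have hloc : ∀ i, ∃ a : K, i ∈ I → (a ≠ 0 ∧ a ∈ N.S₁.A ∧ a⁻¹ ∉ N.S₁.A ∧
      (∀ v, N.r v = some (NS.Rb i) → v.ord (NS.t i) = Finsupp.single (NS.R i) (1 : ℤ) v) ∧
      (∀ v, N.r v = some (NS.Rb i) →
        v.ord (NS.t i - algebraMap K F a) = Finsupp.single (P i) (1 : ℤ) v)) := by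
    intro i
    by_cases hi : i ∈ I
    · obtain ⟨a, ha⟩ := kl_exists_self₂ NS i (P i) (hP i) ((hmemI i).mp hi)
      exact ⟨a, fun _ => ha⟩
    · exact ⟨0, fun h => absurd h hi⟩
  choose aI hL using hloc
  -- choose `istar` with maximal valuation
  obtain ⟨istar, hstar, hmax⟩ :=
    Finset.exists_max_image I (fun i => N.S₁.A.valuation (aI i)) hIne
  have ha0 : aI istar ≠ 0 := (hL istar hstar).1
  have haA : aI istar ∈ N.S₁.A := (hL istar hstar).2.1
  have hai : (aI istar)⁻¹ ∉ N.S₁.A := (hL istar hstar).2.2.1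
  have haA₂ : aI istar ∈ N.S₂.A := (mem_A₂_iff N _).mpr haA
  have hai₂ : (aI istar)⁻¹ ∉ N.S₂.A := fun h => hai ((mem_A₂_iff N _).mp h)
  have h1A : (((1 : ℕ) : K))⁻¹ ∈ N.S₁.A := by
    rw [Nat.cast_one, inv_one]; exact one_mem _
  have h1A₂ : (((1 : ℕ) : K))⁻¹ ∈ N.S₂.A := (mem_A₂_iff N _).mpr h1A
  have h10 : ((1 : ℕ) : K) ≠ 0 := by rw [Nat.cast_one]; exact one_ne_zero
  have haF0 : algebraMap K F (aI istar) ≠ 0 := by simpa using ha0
  have hcA : ∀ i ∈ I, aI i / aI istar ∈ N.S₁.A := by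
    intro i hi
    rw [← ValuationSubring.valuation_le_one_iff, map_div₀]
    have hpos : 0 < N.S₁.A.valuation (aI istar) :=
      zero_lt_iff.mpr ((Valuation.ne_zero_iff _).mpr ha0)
    exact (div_le_one₀ hpos).mpr (hmax i hi)
  have hcA₂ : ∀ i ∈ I, aI i / aI istar ∈ N.S₂.A := fun i hi => (mem_A₂_iff N _).mpr (hcA i hi)
  -- units
  have hsU := fun i (hi : i ∈ I) => kl_s_isU₂ NS i (hL i hi).2.1 (hL i hi).2.2.1
  have hsU₁ : ∀ i ∈ I, (side₁ N).IsU (NS.t i - algebraMap K F (aI i)) := fun i hi =>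
    (hsU i hi).1.u₁
  have hsU₂ : ∀ i ∈ I, (side₂ N).IsU (NS.t i - algebraMap K F (aI i)) := fun i hi =>
    (hsU i hi).1.u₂
  have hs0 : ∀ i ∈ I, NS.t i - algebraMap K F (aI i) ≠ 0 := fun i hi => (hsU₁ i hi).ne_zero
  -- expansions over `R = O₁ ⊓ O₂`
  set R : Subring F := N.S₁.Ov.toSubring ⊓ N.S₂.Ov.toSubring with hR
  have hmemR : ∀ x : F, x ∈ R ↔ x ∈ N.S₁.Ov ∧ x ∈ N.S₂.Ov := fun x => by
    rw [hR, Subring.mem_inf]; rfl
  have haR : algebraMap K F (aI istar) ∈ R :=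
    (hmemR _).mpr ⟨(N.S₁.mem_Ov_iff _).mpr haA, (N.S₂.mem_Ov_iff _).mpr haA₂⟩
  have hσR : ∀ i ∈ I,
      algebraMap K F (aI i / aI istar) * (NS.t i - algebraMap K F (aI i))⁻¹ ∈ R := fun i hi =>
    (hmemR _).mpr ⟨klσ_mem (S := side₁ N) hsU₁ hcA i hi, klσ_mem (S := side₂ N) hsU₂ hcA₂ i hi⟩
  have hq : ∀ i ∈ I, NS.t i * (NS.t i - algebraMap K F (aI i))⁻¹ =
      1 + algebraMap K F (aI istar) *
        (algebraMap K F (aI i / aI istar) * (NS.t i - algebraMap K F (aI i))⁻¹) := by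
    intro i hi
    have := hs0 i hi
    rw [map_div₀]
    field_simp
    ring
  have hq0 : ∀ i ∈ I, NS.t i * (NS.t i - algebraMap K F (aI i))⁻¹ ≠ 0 := fun i hi =>
    mul_ne_zero (kl_t_isU₂ NS i).u₁.ne_zero (inv_ne_zero (hs0 i hi))
  have hexp : KLExpR R (algebraMap K F (aI istar))
      (∏ i ∈ I, NS.t i * (NS.t i - algebraMap K F (aI i))⁻¹)
      (∑ i ∈ I,
        algebraMap K F (aI i / aI istar) * (NS.t i - algebraMap K F (aI i))⁻¹) := by
    apply KLExpR.prod I _ _ haR hσR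
    intro i hi
    rw [hq i hi]
    exact KLExpR.base _ _ _
  obtain ⟨y, hy, hVy⟩ := hexp
  obtain ⟨hy₁, hy₂⟩ := (hmemR y).mp hy
  have hVY : ∏ i ∈ I, NS.t i * (NS.t i - algebraMap K F (aI i))⁻¹ =
      1 + algebraMap K F (aI istar) * klY I NS.t aI (aI istar) 1 y := by
    rw [hVy]; unfold klY; rw [Nat.cast_one, one_mul]; ring
  have hYmem₁ : klY I NS.t aI (aI istar) 1 y ∈ N.S₁.Ov :=
    klY_mem (S := side₁ N) hsU₁ hcA haA hy₁
  have hYmem₂ : klY I NS.t aI (aI istar) 1 y ∈ N.S₂.Ov :=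
    klY_mem (S := side₂ N) hsU₂ hcA₂ haA₂ hy₂
  -- pole orders of `Ξ`
  have hY2 : ∀ j ∈ I, -1 ≤ ordRed N (NS.Rb j) (klY I NS.t aI (aI istar) 1 y) := by
    intro j _
    have hord : ∀ i, pairOrd (NS.Rb j) (N.S₁.red (NS.t i)) (N.S₂.red (NS.t i)) ≤ 1 := by
      intro i
      by_cases hij : i = j
      · subst hij; rw [NS.ord_t_self]
      · rw [NS.ord_t_other i j hij]; norm_num
    revert hord
    unfold ordRed
    generalize NS.Rb j = X
    intro hord
    cases X with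
    | inl Q =>
      exact ord_red_klY_ge (S := side₁ N) Q hsU₁ (fun i hi => (hsU i hi).2.1) hcA haA hai hy₁
        (fun i _ => hord i)
    | inr Q =>
      exact ord_red_klY_ge (S := side₂ N) Q hsU₂ (fun i hi => (hsU i hi).2.2) hcA₂ haA₂ hai₂ hy₂
        (fun i _ => hord i)
  have hY3 : ordRed N (NS.Rb istar) (klY I NS.t aI (aI istar) 1 y) = -1 := by
    have h1 := NS.ord_t_self istar
    have h0 : ∀ i, i ≠ istar →
        pairOrd (NS.Rb istar) (N.S₁.red (NS.t i)) (N.S₂.red (NS.t i)) ≤ 0 := fun i hi => by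
      rw [NS.ord_t_other i istar hi]
    revert h1 h0
    unfold ordRed
    generalize NS.Rb istar = X
    intro h1 h0
    cases X with
    | inl Q =>
      exact ord_red_klY_eq (S := side₁ N) Q hsU₁ (fun i hi => (hsU i hi).2.1) hcA haA hai hy₁
        h10 h1A hstar rfl ha0 h1 (fun i _ hi => h0 i hi)
    | inr Q =>
      exact ord_red_klY_eq (S := side₂ N) Q hsU₂ (fun i hi => (hsU i hi).2.2) hcA₂ haA₂ hai₂ hy₂
        h10 h1A₂ hstar rfl ha0 h1 (fun i _ hi => h0 i hi)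
  -- orders of `u * V` on the discs
  have huV : ∀ j ∈ I, ∀ v, N.r v = some (NS.Rb j) →
      v.ord (u₀ * (1 + algebraMap K F (aI istar) * klY I NS.t aI (aI istar) 1 y) ^ m) = 0 := by
    intro j hj v hv
    rw [← hVY, v.ord_mul hu₀ (pow_ne_zero _ (Finset.prod_ne_zero_iff.mpr hq0)),
      hH2 j hj v hv, kl_ord_pow, kl_ord_prod v I _ hq0, Finset.sum_eq_single_of_mem j hj]
    · rw [v.ord_mul (kl_t_isU₂ NS j).u₁.ne_zero (inv_ne_zero (hs0 j hj)), v.ord_inv,
        (hL j hj).2.2.2.1 v hv, (hL j hj).2.2.2.2 v hv]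
      ring
    · intro i hi hij
      obtain ⟨h1, h2⟩ := kl_ord_other₂ NS i j hij (hL i hi).2.1 (hL i hi).2.2.1 v hv
      rw [v.ord_mul (kl_t_isU₂ NS i).u₁.ne_zero (inv_ne_zero (hs0 i hi)), v.ord_inv, h1, h2]
      norm_num
  exact ⟨I, istar, aI istar, klY I NS.t aI (aI istar) 1 y, hstar, ha0, haA, hai, hYmem₁, hYmem₂,
    hY2, hY3, hH1, huV, hu1⟩


/-- **(HL) the high-level nodal key lemma for the exponent `p`** (residue characteristic `p`).
If `div u₀ = p ∑ (P i - R i)` with `P i` in the residue disc of `Rb i`, `u₀(P0) = 1`, and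
`(u₀ - 1) / d` is integral for both valuations for some constant `d` with
`v(d) > p / (p - 1)`, then `P i = R i` for all `i`. -/
theorem kl_main_p (NS : NodalNS N g) (p : ℕ) (hp : p.Prime) (hp0 : (p : K) ≠ 0)
    (P : Fin g → Place K F) (hP : ∀ i, N.r (P i) = some (NS.Rb i))
    (u₀ : F) (hu₀ : u₀ ≠ 0)
    (hdiv : ∀ v : Place K F, v.ord u₀ =
      p * ∑ i, (Finsupp.single (P i) (1 : ℤ) v - Finsupp.single (NS.R i) (1 : ℤ) v))
    (hP0 : u₀ = 1 ∨ 0 < NS.P0.ord (u₀ - 1))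
    (d : K) (hd0 : d ≠ 0) (hd : InMax N.S₁.A (d ^ (p - 1) / (p : K) ^ p))
    (hlev₁ : (u₀ - 1) / algebraMap K F d ∈ N.S₁.Ov)
    (hlev₂ : (u₀ - 1) / algebraMap K F d ∈ N.S₂.Ov) :
    ∀ i, P i = NS.R i := by
  classical
  by_contra hcon
  obtain ⟨I, istar, a, Ξ, hstar, ha0, haA, hai, hΞ₁, hΞ₂, hΞ2, hΞ3, hoff, huV, hu1⟩ :=
    exists_local_data NS p hp.ne_zero P hP u₀ hu₀ hdiv hcon
  have huP0 : 0 < NS.P0.ord (u₀ - 1) := hP0.resolve_left hu1
  have haA₂ : a ∈ N.S₂.A := (mem_A₂_iff N _).mpr haA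
  have hai₂ : a⁻¹ ∉ N.S₂.A := fun h => hai ((mem_A₂_iff N _).mp h)
  have haO₁ : algebraMap K F a ∈ N.S₁.Ov := (N.S₁.mem_Ov_iff _).mpr haA
  have haO₂ : algebraMap K F a ∈ N.S₂.Ov := (N.S₂.mem_Ov_iff _).mpr haA₂
  set R : Subring F := N.S₁.Ov.toSubring ⊓ N.S₂.Ov.toSubring with hR
  have hmemR : ∀ x : F, x ∈ R ↔ x ∈ N.S₁.Ov ∧ x ∈ N.S₂.Ov := fun x => by
    rw [hR, Subring.mem_inf]; rfl
  have hz : algebraMap K F a * Ξ ∈ R := (hmemR _).mpr ⟨mul_mem haO₁ hΞ₁, mul_mem haO₂ hΞ₂⟩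
  obtain ⟨w, hw, hbin⟩ := exists_binom_prime R hp hz
  obtain ⟨hw₁, hw₂⟩ := (hmemR w).mp hw
  have hW₁ : Ξ ^ 2 * w ∈ N.S₁.Ov := mul_mem (pow_mem hΞ₁ 2) hw₁
  have hW₂ : Ξ ^ 2 * w ∈ N.S₂.Ov := mul_mem (pow_mem hΞ₂ 2) hw₂
  have hpF : (p : F) = algebraMap K F (p : K) := (map_natCast (algebraMap K F) p).symm
  have hpow : a ^ p = a ^ (p - 1) * a := by
    rw [← pow_succ, Nat.sub_add_cancel hp.one_le]
  have hap : a ^ (p - 1) ≠ 0 := pow_ne_zero _ ha0
  have hapow0 : a ^ p ≠ 0 := pow_ne_zero _ ha0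
  rcases Classical.em ((a ^ (p - 1) / (p : K))⁻¹ ∈ N.S₁.A) with hB | hA
  · -- case (B): `v(a) ≤ 1 / (p - 1)`
    set κ : K := (p : K) / a ^ (p - 1) with hκ
    have hκA : κ ∈ N.S₁.A := by rw [hκ, ← inv_div]; exact hB
    have hκA₂ : κ ∈ N.S₂.A := (mem_A₂_iff N _).mpr hκA
    have e1K : a ^ p * κ = (p : K) * a := by
      rw [hpow, hκ]; field_simp
    have e1F : algebraMap K F a ^ p * algebraMap K F κ =
        algebraMap K F (p : K) * algebraMap K F a := by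
      rw [← map_pow, ← map_mul, ← map_mul, e1K]
    have hVZ : (1 + algebraMap K F a * Ξ) ^ p = 1 + algebraMap K F (a ^ p) *
        (Ξ ^ p + algebraMap K F κ * Ξ + algebraMap K F (κ * a) * (Ξ ^ 2 * w)) := by
      rw [hbin, hpF, map_pow, map_mul]
      linear_combination (-(Ξ + algebraMap K F a * Ξ ^ 2 * w)) * e1F
    -- `d / a ^ p` is in the maximal ideal
    have he : InMax N.S₁.A (d / a ^ p) := by
      have e : (d / a ^ p) ^ (p - 1) = d ^ (p - 1) / (p : K) ^ p * κ ^ p := by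
        rw [hκ]
        field_simp
        ring
      have h1 : InMax N.S₁.A ((d / a ^ p) ^ (p - 1)) := by
        rw [e]
        refine hd.mul_right (pow_mem hκA p) ?_
        rw [← e]
        exact pow_ne_zero _ (div_ne_zero hd0 hapow0)
      exact h1.of_pow
    have he₂ : InMax N.S₂.A (d / a ^ p) :=
      ⟨(mem_A₂_iff N _).mpr he.1, fun h => he.2 ((mem_A₂_iff N _).mp h)⟩
    have hnn : 0 ≤ ordRed N (NS.Rb istar)
        ((u₀ * (1 + algebraMap K F a * Ξ) ^ p - 1) / algebraMap K F (a ^ p)) := by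
      refine ordRed_nonneg N _ (isSm_of_r N (NS.r_R istar)) fun v hv => ?_
      rw [kl_ord_div_const v hapow0]
      exact ord_nonneg_sub v (huV istar hstar v hv).ge (ord_one_nonneg v)
    have hneg : ordRed N (NS.Rb istar)
        ((u₀ * (1 + algebraMap K F a * Ξ) ^ p - 1) / algebraMap K F (a ^ p)) = -(p : ℤ) := by
      revert hΞ3
      unfold ordRed
      generalize NS.Rb istar = X
      intro hΞ3
      cases X with
      | inl Q =>
        obtain ⟨hZ, hordZ⟩ := ord_red_Z (S := side₁ N) Q hp.two_le hΞ₁ hW₁ hκA haA hai hΞ3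
        have := (red_quot_B (S := side₁ N) (u := u₀) hd0 hapow0 hlev₁ hVZ hZ (pow_mem haA p)
          he.1 he.2).2
        rw [side₁_red, side₁_red] at this
        rw [side₁_red] at hordZ
        show Q.ord (N.S₁.red _) = _
        rw [this, hordZ]
      | inr Q =>
        obtain ⟨hZ, hordZ⟩ := ord_red_Z (S := side₂ N) Q hp.two_le hΞ₂ hW₂ hκA₂ haA₂ hai₂ hΞ3
        have := (red_quot_B (S := side₂ N) (u := u₀) hd0 hapow0 hlev₂ hVZ hZ (pow_mem haA₂ p)
          he₂.1 he₂.2).2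
        rw [side₂_red, side₂_red] at this
        rw [side₂_red] at hordZ
        show Q.ord (N.S₂.red _) = _
        rw [this, hordZ]
    have := hp.pos
    omega
  · -- case (A): `v(a) > 1 / (p - 1)`
    set b : K := a ^ (p - 1) / (p : K) with hb
    have hbA : b ∈ N.S₁.A := (N.S₁.A.mem_or_inv_mem b).resolve_right hA
    have hbA₂ : b ∈ N.S₂.A := (mem_A₂_iff N _).mpr hbA
    have hA₂ : b⁻¹ ∉ N.S₂.A := fun h => hA ((mem_A₂_iff N _).mp h)
    have e2K : (p : K) * a * b = a ^ p := by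
      rw [hpow, hb]; field_simp
    have e2F : algebraMap K F (p : K) * algebraMap K F a * algebraMap K F b =
        algebraMap K F a ^ p := by
      rw [← map_pow, ← map_mul, ← map_mul, e2K]
    have hVY : (1 + algebraMap K F a * Ξ) ^ p = 1 + algebraMap K F ((p : K) * a) *
        (Ξ + algebraMap K F a * (Ξ ^ 2 * w) + algebraMap K F b * Ξ ^ p) := by
      rw [hbin, hpF, map_mul]
      linear_combination (-(Ξ ^ p)) * e2F
    have ha'0 : (p : K) * a ≠ 0 := mul_ne_zero hp0 ha0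
    have ha'A : (p : K) * a ∈ N.S₁.A := mul_mem (natCast_mem _ p) haA
    have ha'i : ((p : K) * a)⁻¹ ∉ N.S₁.A := by
      intro h
      apply hai
      have e : a⁻¹ = ((p : K) * a)⁻¹ * (p : K) := by
        field_simp
      rw [e]
      exact mul_mem h (natCast_mem _ p)
    obtain ⟨h1₁, h2₁⟩ := red_add_const_mul (S := side₁ N) hΞ₁ hW₁ haA hai
    obtain ⟨hY₁, hrY₁⟩ := red_add_const_mul (S := side₁ N) h1₁ (pow_mem hΞ₁ p) hbA hA
    obtain ⟨h1₂, h2₂⟩ := red_add_const_mul (S := side₂ N) hΞ₂ hW₂ haA₂ hai₂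
    obtain ⟨hY₂, hrY₂⟩ := red_add_const_mul (S := side₂ N) h1₂ (pow_mem hΞ₂ p) hbA₂ hA₂
    rw [h2₁, side₁_red, side₁_red] at hrY₁
    rw [h2₂, side₂_red, side₂_red] at hrY₂
    have hordY : ∀ X, ordRed N X (Ξ + algebraMap K F a * (Ξ ^ 2 * w) +
        algebraMap K F b * Ξ ^ p) = ordRed N X Ξ := fun X => by
      unfold ordRed
      rw [hrY₁, hrY₂]
    refine kl_core₂ NS I istar hstar huP0 hoff ha'0 ha'A ha'i hY₁ hY₂ ?_ ?_ ?_
    · intro j hj
      rw [hordY]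
      exact hΞ2 j hj
    · rw [hordY]
      exact hΞ3
    · intro j hj v hv
      rw [← hVY]
      exact huV j hj v hv

/-- **(HL), second form**: the level hypothesis in the form "`(u₀ - 1) / δ` is in the maximal
ideals of both valuation rings", `δ` any constant with `v(δ) ≥ p / (p - 1)` (for instance
`δ = (ζ - 1) ^ p`, `ζ` a primitive `p`-th root of unity). -/
theorem kl_main_p_of_red_eq_zero (NS : NodalNS N g) (p : ℕ) (hp : p.Prime) (hp0 : (p : K) ≠ 0)
    (P : Fin g → Place K F) (hP : ∀ i, N.r (P i) = some (NS.Rb i))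
    (u₀ : F) (hu₀ : u₀ ≠ 0)
    (hdiv : ∀ v : Place K F, v.ord u₀ =
      p * ∑ i, (Finsupp.single (P i) (1 : ℤ) v - Finsupp.single (NS.R i) (1 : ℤ) v))
    (hP0 : u₀ = 1 ∨ 0 < NS.P0.ord (u₀ - 1))
    (δ : K) (hδ0 : δ ≠ 0) (hδ : δ ^ (p - 1) / (p : K) ^ p ∈ N.S₁.A)
    (hlev₁ : (u₀ - 1) / algebraMap K F δ ∈ N.S₁.Ov)
    (hred₁ : N.S₁.red ((u₀ - 1) / algebraMap K F δ) = 0)
    (hlev₂ : (u₀ - 1) / algebraMap K F δ ∈ N.S₂.Ov)
    (hred₂ : N.S₂.red ((u₀ - 1) / algebraMap K F δ) = 0) :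
    ∀ i, P i = NS.R i := by
  classical
  by_contra hcon
  obtain ⟨I, istar, a, Ξ, -, -, -, -, -, -, -, -, -, -, hu1⟩ :=
    exists_local_data NS p hp.ne_zero P hP u₀ hu₀ hdiv hcon
  have hx : u₀ - 1 ≠ 0 := sub_ne_zero.mpr hu1
  obtain ⟨c, hc0, hc₁, hc₂, hne⟩ := exists_scale₂ N hx
  have hδF : algebraMap K F δ ≠ 0 := by simpa using hδ0
  have hcF : algebraMap K F c ≠ 0 := by simpa using hc0
  have hcδ0 : c / δ ≠ 0 := div_ne_zero hc0 hδ0
  have hin : InMax N.S₁.A (c / δ) := by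
    rcases hne with h | h
    · exact inMax_div_of_red_eq_zero (S := side₁ N) hc0 hδ0 hlev₁ hred₁ hc₁ h
    · have := inMax_div_of_red_eq_zero (S := side₂ N) hc0 hδ0 hlev₂ hred₂ hc₂ h
      exact ⟨(mem_A₂_iff N _).mp this.1, fun hi => this.2 ((mem_A₂_iff N _).mpr hi)⟩
  have hp1 : p - 1 ≠ 0 := by have := hp.two_le; omega
  have hd : InMax N.S₁.A (c ^ (p - 1) / (p : K) ^ p) := by
    have e : c ^ (p - 1) / (p : K) ^ p = (c / δ) ^ (p - 1) * (δ ^ (p - 1) / (p : K) ^ p) := by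
      have h1 : δ ^ (p - 1) ≠ 0 := pow_ne_zero _ hδ0
      have h2 : (p : K) ^ p ≠ 0 := pow_ne_zero _ hp0
      rw [div_pow]
      field_simp
    rw [e]
    refine (hin.pow hp1).mul_right hδ ?_
    rw [← e]
    exact div_ne_zero (pow_ne_zero _ hc0) (pow_ne_zero _ hp0)
  exact hcon (kl_main_p NS p hp hp0 P hP u₀ hu₀ hdiv hP0 c hc0 hd hc₁ hc₂)

end Main

end NKP

namespace PTor

variable {K F k Fk₁ Fk₂ : Type*} [Field K] [Field F] [Algebra K F]
  [Field k] [Field Fk₁] [Algebra k Fk₁] [Field Fk₂] [Algebra k Fk₂] {ι : Type*}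

/-- **(HL)**: `HighLevelStatement` of `Nodal/P/Defs.lean`. -/
theorem highLevel (N : NodalSetup K F k Fk₁ Fk₂ ι) (g : ℕ) (NS : NodalNS N g) (p : ℕ) (lam : K)
    (h : IsCycloUnif N p lam) : HighLevelStatement N g NS p lam := by
  intro P hP u₀ hu₀ hdiv hP0 hlev
  refine NKP.kl_main_p_of_red_eq_zero NS p h.prime h.p_ne_zero P hP u₀ hu₀ hdiv (Or.inr hP0)
    (lam ^ p) (pow_ne_zero _ h.ne_zero) ?_ hlev.1.1 hlev.1.2 hlev.2.1 hlev.2.2
  have e : (lam ^ p) ^ (p - 1) / (p : K) ^ p = (lam ^ (p - 1) / (p : K)) ^ p := by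
    rw [div_pow, ← pow_mul, ← pow_mul, mul_comm]
  rw [e]
  exact pow_mem h.kappa_inv_mem p

/-- (HL) with the level hypothesis in the form "`(u₀ - 1) / d` is integral for both valuations,
`d ^ (p - 1) / p ^ p` in the maximal ideal of `A`" (no uniformiser `lam` needed). -/
theorem highLevel_of_const (N : NodalSetup K F k Fk₁ Fk₂ ι) (g : ℕ) (NS : NodalNS N g) (p : ℕ)
    (hp : p.Prime) (hp0 : (p : K) ≠ 0)
    (P : Fin g → Place K F) (hP : ∀ i, N.r (P i) = some (NS.Rb i))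
    (u₀ : F) (hu₀ : u₀ ≠ 0)
    (hdiv : ∀ v : Place K F, v.ord u₀ =
      p * ∑ i, (Finsupp.single (P i) (1 : ℤ) v - Finsupp.single (NS.R i) (1 : ℤ) v))
    (hP0 : 0 < NS.P0.ord (u₀ - 1))
    (d : K) (hd0 : d ≠ 0) (hdA : d ^ (p - 1) / (p : K) ^ p ∈ N.S₁.A)
    (hdi : (d ^ (p - 1) / (p : K) ^ p)⁻¹ ∉ N.S₁.A) (hlev : LevelGE N d u₀) :
    ∀ i, P i = NS.R i :=
  NKP.kl_main_p NS p hp hp0 P hP u₀ hu₀ hdiv (Or.inr hP0) d hd0 ⟨hdA, hdi⟩ hlev.1 hlev.2

end PTor

end Fermat.Agent.BadRed
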