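import Mathlib
import Fermat.Agent.Lib.BadRed.Nodal.P.HighLevel

set_option autoImplicit false

/-!
# S33-new, seat P-L (helper42): auxiliary lemmas for `Nodal/P/Level.lean`

Residue characteristic `p`.  Design: helper66's note "S33-new, elementary proof of COV", steps (L)
and (AS).

* Frobenius on the residue function fields: `ord (a ^ p) = p ord a`, values of `p`-th roots
  (`valAt_of_pow`), `isNodalFn_of_pow`, the order of `a ^ p + c a` at a pole of `a`;
* one-sided valuation lemmas: `mem_of_pow_mem`, `red_eq_one_of_pow`, the LOW case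
  `red (((1 + x) ^ p - 1) / c ^ p) = red (x / c) ^ p` (`v(c) < v(lam)`) and the CRITICAL case
  `red (((1 + lam B) ^ p - 1) / lam ^ p) = red B ^ p + κ̄ red B`;
* `core` : a function of `O₁ ∩ O₂`, regular off the discs of the `Rb j`, with poles of order `≤ p`
  at the `Rb j`, vanishing at `P0`, whose reductions are `a_i ^ p + c₀ a_i` for a nodal pair
  `(a₁, a₂)`, has reductions `0`.
-/

noncomputable section

open AlgebraicCurve Fermat.Agent.RR Fermat.Agent.Deuring

namespace Fermat.Agent.BadRed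

namespace PLv

open NK NKP
open Fermat.Agent.S18Key (ord_neg' ord_nonneg_add ord_nonneg_sub ord_nonneg_mul ord_const_nonneg
  ord_one_nonneg ord_add_ge_of_ge ord_add_eq_of_lt mapDomain_apply_eq_sum sum_le_mapDomain
  mapDomain_nonneg le_mapDomain add_le_mapDomain kl_ord_const_mul kl_ord_mul_const
  kl_ord_div_const kl_ord_sum_ge kl_ord_prod kl_ord_pow kl_ord_sub_ge_of_ge
  kl_ne_zero_of_ord_ne_zero kl_const_eq_zero_of_ord_pos)

/-! ### Frobenius on a function field of characteristic `p` -/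

section Frob

variable {k Fk : Type*} [Field k] [Field Fk] [Algebra k Fk] {p : ℕ}

/-- the characteristic of an extension field. -/
theorem charP_of_algebra (hp : p.Prime) (hk : (p : k) = 0) : CharP Fk p := by
  refine (CharP.charP_iff_prime_eq_zero hp).mpr ?_
  have := congrArg (algebraMap k Fk) hk
  simpa using this

/-- `a ^ p = b ^ p → a = b` in characteristic `p`. -/
theorem eq_of_pow_eq (hp : p.Prime) (hk : (p : k) = 0) {a b : Fk} (h : a ^ p = b ^ p) :
    a = b := by
  have : CharP Fk p := charP_of_algebra hp hk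
  have : Fact p.Prime := ⟨hp⟩
  exact frobenius_inj Fk p h

/-- `(a - c) ^ p = a ^ p - c ^ p`. -/
theorem sub_pow_p (hp : p.Prime) (hk : (p : k) = 0) (a b : Fk) :
    (a - b) ^ p = a ^ p - b ^ p := by
  have : CharP Fk p := charP_of_algebra hp hk
  have : Fact p.Prime := ⟨hp⟩
  exact sub_pow_char a b

/-- values of `p`-th roots. -/
theorem valAt_of_pow (hp : p.Prime) (hk : (p : k) = 0) (Q : Place k Fk) {a : Fk} {c : k}
    (h : ValAt Q (a ^ p) (c ^ p)) : ValAt Q a c := by
  have e : a ^ p - algebraMap k Fk (c ^ p) = (a - algebraMap k Fk c) ^ p := by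
    rw [sub_pow_p hp hk, map_pow]
  rcases h with h | h
  · left
    have h0 : (a - algebraMap k Fk c) ^ p = 0 := by rw [← e, h, sub_self]
    exact sub_eq_zero.mp (pow_eq_zero_iff hp.ne_zero |>.mp h0)
  · right
    rw [e, kl_ord_pow] at h
    have hp0 : (0 : ℤ) < p := by exact_mod_cast hp.pos
    exact pos_of_mul_pos_right h hp0.le

/-- `0 ≤ ord (a ^ p) → 0 ≤ ord a`. -/
theorem ord_nonneg_of_pow (hp : p.Prime) (Q : Place k Fk) {a : Fk} (h : 0 ≤ Q.ord (a ^ p)) :
    0 ≤ Q.ord a := by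
  rw [kl_ord_pow] at h
  have hp0 : (0 : ℤ) < p := by exact_mod_cast hp.pos
  exact nonneg_of_mul_nonneg_right h hp0

/-- the order of `a ^ p + c a` at a pole of `a`. -/
theorem ord_wp_of_neg (hp : p.Prime) (Q : Place k Fk) {a : Fk} (c : k) (h : Q.ord a < 0) :
    Q.ord (a ^ p + algebraMap k Fk c * a) = p * Q.ord a := by
  have ha0 : a ≠ 0 := by rintro rfl; simp at h
  have h2 : (2 : ℤ) ≤ p := by exact_mod_cast hp.two_le
  rw [ord_add_eq_of_ord_lt Q (pow_ne_zero p ha0), kl_ord_pow]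
  intro hg0
  rw [kl_ord_pow]
  have hc0 : c ≠ 0 := by
    rintro rfl
    apply hg0
    rw [map_zero, zero_mul]
  rw [kl_ord_const_mul Q hc0]
  nlinarith

/-- regularity of `a` from the regularity of `a ^ p + c a`. -/
theorem ord_nonneg_of_wp (hp : p.Prime) (Q : Place k Fk) {a : Fk} (c : k)
    (h : 0 ≤ Q.ord (a ^ p + algebraMap k Fk c * a)) : 0 ≤ Q.ord a := by
  by_contra hneg
  push Not at hneg
  rw [ord_wp_of_neg hp Q c hneg] at h
  have hp0 : (0 : ℤ) < p := by exact_mod_cast hp.pos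
  nlinarith

/-- a pole of order `≤ p` of `a ^ p + c a` is a pole of order `≤ 1` of `a`. -/
theorem ord_ge_neg_one_of_wp (hp : p.Prime) (Q : Place k Fk) {a : Fk} (c : k)
    (h : -(p : ℤ) ≤ Q.ord (a ^ p + algebraMap k Fk c * a)) : -1 ≤ Q.ord a := by
  by_contra hneg
  push Not at hneg
  rw [ord_wp_of_neg hp Q c (by omega)] at h
  have hp0 : (0 : ℤ) < p := by exact_mod_cast hp.pos
  nlinarith

end Frob

/-! ### one-sided valuation lemmas -/

section OneSide

variable {K F k : Type*} [Field K] [Field F] [Algebra K F] [Field k]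
  {Fk X : Type*} [Field Fk] [Algebra k Fk] {S : NSide K F k Fk X} {p : ℕ}

/-- valuation rings are integrally closed (special case). -/
theorem mem_of_pow_mem {x : F} {n : ℕ} (hn : n ≠ 0) (h : x ^ n ∈ S.Ov) : x ∈ S.Ov := by
  by_contra hx
  have hi : x⁻¹ ∈ S.Ov := (mem_or_inv_mem (S := S) x).resolve_left hx
  obtain ⟨m, rfl⟩ := Nat.exists_eq_succ_of_ne_zero hn
  have hx0 : x ≠ 0 := fun h0 => hx (h0 ▸ zero_mem _)
  have e : x = x ^ (m + 1) * (x⁻¹) ^ m := by
    rw [pow_succ, inv_pow]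
    field_simp
  apply hx
  rw [e]
  exact mul_mem h (pow_mem hi m)

/-- the residue of a constant of `A`, as a constant of `Fk`. -/
theorem red_const_eq {c : K} (hc : c ∈ S.A) :
    S.red (algebraMap K F c) = algebraMap k Fk (S.res ⟨c, hc⟩) := red_const hc

/-- `p` vanishes in the residue field as soon as `p` is in the maximal ideal. -/
theorem cast_p_eq_zero (hpm : InMax S.A (p : K)) : (p : k) = 0 := by
  have h := (res_eq_zero_iff (S := S) hpm.1).mpr (Or.inr hpm.2)
  have e : S.res ⟨(p : K), hpm.1⟩ = (p : k) := by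
    have : (⟨(p : K), hpm.1⟩ : S.A) = ((p : ℕ) : S.A) := by
      apply Subtype.ext
      simp
    rw [this, map_natCast]
  rw [← e, h]

/-- a `p`-th root of a `1`-unit is a `1`-unit. -/
theorem red_eq_one_of_pow (hp : p.Prime) (hk : (p : k) = 0) {x : F} (h : x ^ p ∈ S.Ov)
    (h1 : S.red (x ^ p) = 1) : x ∈ S.Ov ∧ S.red x = 1 := by
  have hx : x ∈ S.Ov := mem_of_pow_mem hp.ne_zero h
  refine ⟨hx, ?_⟩
  rw [red_pow hx] at h1
  exact eq_of_pow_eq (k := k) hp hk (by rw [h1, one_pow])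

/-- **LOW case**: for `v(c) < v(lam)` and `x / c` integral,
`((1 + x) ^ p - 1) / c ^ p ≡ (x / c) ^ p`. -/
theorem red_low (hp : p.Prime) (hp0 : (p : K) ≠ 0) {lam c : K}
    (hκ : (p : K) / lam ^ (p - 1) ∈ S.A) (hc0 : c ≠ 0) (hlc : InMax S.A (lam / c))
    {x : F} (hx : x ∈ S.Ov) (hxc : x / algebraMap K F c ∈ S.Ov) :
    ((1 + x) ^ p - 1) / algebraMap K F (c ^ p) ∈ S.Ov ∧
      S.red (((1 + x) ^ p - 1) / algebraMap K F (c ^ p)) = S.red (x / algebraMap K F c) ^ p := by
  obtain ⟨w, hw, hbin⟩ := exists_binom_prime S.Ov.toSubring hp (z := x) hx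
  have hw' : w ∈ S.Ov := hw
  have hp1 : p - 1 ≠ 0 := by have := hp.two_le; omega
  have hl0 : lam ≠ 0 := by
    rintro rfl
    apply hlc.2
    rw [zero_div, inv_zero]
    exact zero_mem _
  have hcF : algebraMap K F c ≠ 0 := by simpa using hc0
  set q : K := (lam / c) ^ (p - 1) * ((p : K) / lam ^ (p - 1)) with hq
  have hq0 : q ≠ 0 :=
    mul_ne_zero (pow_ne_zero _ (div_ne_zero hl0 hc0)) (div_ne_zero hp0 (pow_ne_zero _ hl0))
  have hqm : InMax S.A q := (hlc.pow hp1).mul_right hκ hq0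
  have hqe : q = (p : K) / c ^ (p - 1) := by
    rw [hq, div_pow]
    have := pow_ne_zero (p - 1) hl0
    have := pow_ne_zero (p - 1) hc0
    field_simp
  have hpe : c ^ p = c ^ (p - 1) * c := by
    rw [← pow_succ]
    congr 1
    have := hp.two_le
    omega
  have hW : x / algebraMap K F c * (1 + x * w) ∈ S.Ov :=
    mul_mem hxc (add_mem (one_mem _) (mul_mem hx hw'))
  have e : ((1 + x) ^ p - 1) / algebraMap K F (c ^ p) =
      (x / algebraMap K F c) ^ p + algebraMap K F q * (x / algebraMap K F c * (1 + x * w)) := by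
    rw [hbin, hqe, map_div₀, map_natCast, div_pow]
    have h1 : algebraMap K F (c ^ (p - 1)) ≠ 0 := by simpa using pow_ne_zero (p - 1) hc0
    have h2 : algebraMap K F c ^ p = algebraMap K F (c ^ (p - 1)) * algebraMap K F c := by
      rw [← map_pow, hpe, map_mul]
    have h3 : algebraMap K F (c ^ p) = algebraMap K F (c ^ (p - 1)) * algebraMap K F c := by
      rw [hpe, map_mul]
    rw [h3, h2]
    field_simp
    ring
  rw [e]
  obtain ⟨h1, h2⟩ := red_add_const_mul (S := S) (pow_mem hxc p) hW hqm.1 hqm.2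
  exact ⟨h1, by rw [h2, red_pow hxc]⟩

/-- **CRITICAL case**: `((1 + lam B) ^ p - 1) / lam ^ p ≡ B ^ p + κ B`, `κ = p / lam ^ (p - 1)`. -/
theorem red_crit (hp : p.Prime) {lam : K} (hlm : InMax S.A lam)
    (hκ : (p : K) / lam ^ (p - 1) ∈ S.A) {B : F} (hB : B ∈ S.Ov) :
    ((1 + algebraMap K F lam * B) ^ p - 1) / algebraMap K F (lam ^ p) ∈ S.Ov ∧
      S.red (((1 + algebraMap K F lam * B) ^ p - 1) / algebraMap K F (lam ^ p)) =
        S.red B ^ p + S.red (algebraMap K F ((p : K) / lam ^ (p - 1))) * S.red B := by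
  have hlO : algebraMap K F lam ∈ S.Ov := (const_mem_iff lam).mpr hlm.1
  have hκO : algebraMap K F ((p : K) / lam ^ (p - 1)) ∈ S.Ov := (const_mem_iff _).mpr hκ
  obtain ⟨w, hw, hbin⟩ := exists_binom_prime S.Ov.toSubring hp (z := algebraMap K F lam * B)
    (mul_mem hlO hB)
  have hw' : w ∈ S.Ov := hw
  have hl0 : lam ≠ 0 := by
    rintro rfl
    apply hlm.2
    rw [inv_zero]
    exact zero_mem _
  have hlF : algebraMap K F lam ≠ 0 := by simpa using hl0
  have hpe : lam ^ p = lam ^ (p - 1) * lam := by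
    rw [← pow_succ]
    congr 1
    have := hp.two_le
    omega
  have hY : B ^ p + algebraMap K F ((p : K) / lam ^ (p - 1)) * B ∈ S.Ov :=
    add_mem (pow_mem hB p) (mul_mem hκO hB)
  have hW : algebraMap K F ((p : K) / lam ^ (p - 1)) * (B ^ 2 * w) ∈ S.Ov :=
    mul_mem hκO (mul_mem (pow_mem hB 2) hw')
  have e : ((1 + algebraMap K F lam * B) ^ p - 1) / algebraMap K F (lam ^ p) =
      (B ^ p + algebraMap K F ((p : K) / lam ^ (p - 1)) * B) +
        algebraMap K F lam * (algebraMap K F ((p : K) / lam ^ (p - 1)) * (B ^ 2 * w)) := by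
    rw [hbin, map_div₀, map_natCast]
    have h1 : algebraMap K F (lam ^ (p - 1)) ≠ 0 := by simpa using pow_ne_zero (p - 1) hl0
    have h2 : algebraMap K F (lam ^ p) = algebraMap K F (lam ^ (p - 1)) * algebraMap K F lam := by
      rw [hpe, map_mul]
    have h3 : (algebraMap K F lam * B) ^ p =
        algebraMap K F (lam ^ (p - 1)) * algebraMap K F lam * B ^ p := by
      rw [mul_pow, ← map_pow, hpe, map_mul]
    rw [h3, h2]
    field_simp
    ring
  rw [e]
  obtain ⟨h1, h2⟩ := red_add_const_mul (S := S) hY hW hlm.1 hlm.2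
  exact ⟨h1, by rw [h2, red_add (pow_mem hB p) (mul_mem hκO hB), red_pow hB, red_mul hκO hB]⟩

/-- if `x` is in the maximal ideal and `x / c` is a unit of `Ov`, then `c` is in the maximal
ideal of `A`. -/
theorem inMax_of_red_eq_zero {x : F} {c : K} (hc0 : c ≠ 0) (hx : x ∈ S.Ov) (hx0 : S.red x = 0)
    (h3 : x / algebraMap K F c ∈ S.Ov) (h4 : S.red (x / algebraMap K F c) ≠ 0) :
    InMax S.A c := by
  have h := inMax_div_of_red_eq_zero (S := S) (x := x) (c := c) (δ := 1) hc0 one_ne_zero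
    (by rw [map_one, div_one]; exact hx) (by rw [map_one, div_one]; exact hx0) h3 h4
  rwa [div_one] at h

end OneSide

/-! ### one-sided: poles of the reduction, `p`-th roots of the leading coefficient -/

section OneSide2

variable {K F k : Type*} [Field K] [Field F] [Algebra K F] [Field k]
  {Fk X : Type*} [Field Fk] [Algebra k Fk] {S : NSide K F k Fk X} {p : ℕ}

/-- if `f t ^ n` has no pole on the disc of `Q` and `red t` is a parameter at `Q`, then `red f`
has a pole of order at most `n` at `Q`. -/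
theorem ord_red_ge_of_param {f t : F} (Q : Place k Fk) (hQ : S.sm Q) (hf : S.IsU f)
    (ht : S.IsU t) (n : ℕ) (hreg : ∀ P, S.r P = some (S.emb Q) → 0 ≤ P.ord (f * t ^ n))
    (hordt : Q.ord (S.red t) = 1) : -(n : ℤ) ≤ Q.ord (S.red f) := by
  have h := push_nonneg (hf.mul (ht.pow n)) Q hQ hreg
  rw [red_mul hf.mem (ht.pow n).mem, red_pow ht.mem,
    Q.ord_mul hf.red_ne_zero (pow_ne_zero n ht.red_ne_zero), kl_ord_pow, hordt] at h
  omega

/-- `p` is in the maximal ideal of `A`. -/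
theorem inMax_p (hp : p.Prime) (hp0 : (p : K) ≠ 0) {lam : K} (hlm : InMax S.A lam)
    (hκ : (p : K) / lam ^ (p - 1) ∈ S.A) : InMax S.A (p : K) := by
  have hl0 : lam ≠ 0 := by
    rintro rfl
    apply hlm.2
    rw [inv_zero]
    exact zero_mem _
  have hp1 : p - 1 ≠ 0 := by have := hp.two_le; omega
  have e : (p : K) = lam ^ (p - 1) * ((p : K) / lam ^ (p - 1)) := by
    have := pow_ne_zero (p - 1) hl0
    field_simp
  have h := (hlm.pow hp1).mul_right hκ (by rw [← e]; exact hp0)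
  rwa [← e] at h

/-- `p ^ 2 / lam ^ p` is integral. -/
theorem p_sq_div_mem (hp : p.Prime) {lam : K} (hlm : InMax S.A lam)
    (hκ : (p : K) / lam ^ (p - 1) ∈ S.A) : (p : K) ^ 2 / lam ^ p ∈ S.A := by
  have hl0 : lam ≠ 0 := by
    rintro rfl
    apply hlm.2
    rw [inv_zero]
    exact zero_mem _
  have h2 := hp.two_le
  have e : (p : K) ^ 2 / lam ^ p = ((p : K) / lam ^ (p - 1)) ^ 2 * lam ^ (p - 2) := by
    have e1 : lam ^ p = lam ^ (p - 2) * lam ^ 2 := by
      rw [← pow_add]
      congr 1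
      omega
    have e2 : lam ^ (p - 1) = lam ^ (p - 2) * lam := by
      rw [← pow_succ]
      congr 1
      omega
    rw [e1, e2]
    have := pow_ne_zero (p - 2) hl0
    field_simp
  rw [e]
  exact mul_mem (pow_mem hκ 2) (pow_mem hlm.1 _)

/-- **the leading coefficient of a split `1`-unit below the critical level is a `p`-th power.**
`u` a unit with `red u = 1` which is a constant times a `p`-th power times a `1`-unit of level
`p ^ 2`; `(u - 1) / d` integral with `v(d) < v(lam ^ p)`.  Then `red ((u - 1) / d)` is a `p`-th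
power. -/
theorem exists_root_red (hp : p.Prime) (hp0 : (p : K) ≠ 0) {lam : K} (hlm : InMax S.A lam)
    (hκ : (p : K) / lam ^ (p - 1) ∈ S.A) (hK : ∀ c : K, ∃ d : K, d ^ p = c)
    {u : F} (hu : S.IsU u) (hru : S.red u = 1)
    (hsplit : ∃ (H : F) (c : K), H ≠ 0 ∧ c ≠ 0 ∧
      (u / (algebraMap K F c * H ^ p) - 1) / algebraMap K F ((p : K) ^ 2) ∈ S.Ov)
    {d : K} (hd0 : d ≠ 0) (hδd : InMax S.A (lam ^ p / d))
    (hd : (u - 1) / algebraMap K F d ∈ S.Ov) :
    ∃ a : Fk, S.red ((u - 1) / algebraMap K F d) = a ^ p := by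
  have hpm : InMax S.A (p : K) := inMax_p hp hp0 hlm hκ
  have hk : (p : k) = 0 := cast_p_eq_zero (S := S) hpm
  have hl0 : lam ≠ 0 := by
    rintro rfl
    apply hlm.2
    rw [inv_zero]
    exact zero_mem _
  have hdF : algebraMap K F d ≠ 0 := by simpa using hd0
  obtain ⟨H, c, hH0, hc0, he⟩ := hsplit
  set e : F := (u / (algebraMap K F c * H ^ p) - 1) / algebraMap K F ((p : K) ^ 2) with hedef
  obtain ⟨c₀, hc₀⟩ := hK c
  have hc₀0 : c₀ ≠ 0 := by
    rintro rfl
    rw [zero_pow hp.ne_zero] at hc₀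
    exact hc0 hc₀.symm
  have hcF : algebraMap K F c ≠ 0 := by simpa using hc0
  have hp2F : algebraMap K F ((p : K) ^ 2) ≠ 0 := (map_ne_zero _).mpr (pow_ne_zero 2 hp0)
  set H' : F := algebraMap K F c₀ * H with hH'
  have hH'p : H' ^ p = algebraMap K F c * H ^ p := by
    rw [hH', mul_pow, ← map_pow, hc₀]
  have hcH0 : algebraMap K F c * H ^ p ≠ 0 := mul_ne_zero hcF (pow_ne_zero _ hH0)
  -- `u = H' ^ p (1 + p² e)`
  have hu_eq : u = H' ^ p * (1 + algebraMap K F ((p : K) ^ 2) * e) := by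
    rw [hH'p, hedef]
    field_simp
    ring
  have hp2m : InMax S.A ((p : K) ^ 2) := hpm.pow two_ne_zero
  obtain ⟨hv1, hv2⟩ := red_add_const_mul (S := S) (Y := 1) (one_mem _) he hp2m.1 hp2m.2
  rw [red_one] at hv2
  have hvU : S.IsU (1 + algebraMap K F ((p : K) ^ 2) * e) :=
    isU_of_red_ne_zero hv1 (by rw [hv2]; exact one_ne_zero)
  have hHp : H' ^ p = u / (1 + algebraMap K F ((p : K) ^ 2) * e) := by
    rw [hu_eq, mul_div_assoc, div_self hvU.ne_zero, mul_one]
  have hHpU : S.IsU (H' ^ p) := by rw [hHp]; exact hu.div hvU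
  have hHpr : S.red (H' ^ p) = 1 := by
    have h1 : S.red (H' ^ p) * S.red (1 + algebraMap K F ((p : K) ^ 2) * e) = S.red u := by
      rw [← red_mul hHpU.mem hvU.mem, ← hu_eq]
    rw [hv2, mul_one, hru] at h1
    exact h1
  obtain ⟨hHm, hHr⟩ := red_eq_one_of_pow (S := S) hp hk hHpU.mem hHpr
  set x : F := H' - 1 with hx
  have hxm : x ∈ S.Ov := sub_mem hHm (one_mem _)
  have hH1 : H' = 1 + x := by rw [hx]; ring
  -- `Y = ((1 + x) ^ p - 1) / d` has the same reduction as `(u - 1) / d`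
  have hq : InMax S.A ((p : K) ^ 2 / lam ^ p * (lam ^ p / d)) := by
    have h0 : lam ^ p / d * ((p : K) ^ 2 / lam ^ p) ≠ 0 :=
      mul_ne_zero (div_ne_zero (pow_ne_zero _ hl0) hd0)
        (div_ne_zero (pow_ne_zero _ hp0) (pow_ne_zero _ hl0))
    have := hδd.mul_right (p_sq_div_mem (S := S) hp hlm hκ) h0
    rwa [mul_comm] at this
  have hqe : (p : K) ^ 2 / lam ^ p * (lam ^ p / d) = (p : K) ^ 2 / d := by
    have := pow_ne_zero p hl0
    field_simp
  rw [hqe] at hq
  have hqn : InMax S.A (-((p : K) ^ 2 / d)) :=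
    ⟨neg_mem hq.1, by rw [inv_neg]; exact fun h => hq.2 (by simpa using neg_mem h)⟩
  have hYe : ((1 + x) ^ p - 1) / algebraMap K F d =
      (u - 1) / algebraMap K F d + algebraMap K F (-((p : K) ^ 2 / d)) * (H' ^ p * e) := by
    rw [← hH1, map_neg, map_div₀]
    conv_rhs => rw [hu_eq]
    field_simp
    ring
  obtain ⟨hY, hYr⟩ := red_add_const_mul (S := S) hd (mul_mem hHpU.mem he) hqn.1 hqn.2
  rw [← hYe] at hY hYr
  rw [← hYr]
  -- the two cases
  by_cases hx0 : x = 0
  · refine ⟨0, ?_⟩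
    rw [hx0, add_zero, one_pow, sub_self, zero_div, red_zero, zero_pow hp.ne_zero]
  obtain ⟨c₄, hc₄0, hU₄⟩ := exists_scale (S := S) hx0
  have hc₄F : algebraMap K F c₄ ≠ 0 := by simpa using hc₄0
  have hlF : algebraMap K F lam ≠ 0 := by simpa using hl0
  by_cases hxl : x / algebraMap K F lam ∈ S.Ov
  · -- critical or higher: the reduction vanishes
    refine ⟨0, ?_⟩
    obtain ⟨hZ, -⟩ := red_crit (S := S) hp hlm hκ hxl
    have e1 : 1 + algebraMap K F lam * (x / algebraMap K F lam) = 1 + x := by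
      field_simp
    rw [e1] at hZ
    have e2 : ((1 + x) ^ p - 1) / algebraMap K F d =
        0 + algebraMap K F (lam ^ p / d) * (((1 + x) ^ p - 1) / algebraMap K F (lam ^ p)) := by
      rw [map_div₀, zero_add]
      have : algebraMap K F (lam ^ p) ≠ 0 := by simpa using pow_ne_zero p hl0
      field_simp
    rw [e2, zero_pow hp.ne_zero]
    have := (red_add_const_mul (S := S) (zero_mem _) hZ hδd.1 hδd.2).2
    rw [this, red_zero]
  · -- low case
    have hlc : InMax S.A (lam / c₄) := by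
      have hn : c₄ / lam ∉ S.A := by
        intro hmem
        apply hxl
        have e3 : x / algebraMap K F lam = x / algebraMap K F c₄ * algebraMap K F (c₄ / lam) := by
          rw [map_div₀]
          field_simp
        rw [e3]
        exact mul_mem hU₄.mem ((const_mem_iff _).mpr hmem)
      have h1 : lam / c₄ ∈ S.A := by
        rcases S.A.mem_or_inv_mem (c₄ / lam) with h | h
        · exact absurd h hn
        · rwa [inv_div] at h
      exact ⟨h1, by rwa [inv_div]⟩
    obtain ⟨hZ, hZr⟩ := red_low (S := S) hp hp0 hκ hc₄0 hlc hxm hU₄.mem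
    have hZU : S.IsU (((1 + x) ^ p - 1) / algebraMap K F (c₄ ^ p)) :=
      isU_of_red_ne_zero hZ (by rw [hZr]; exact pow_ne_zero _ hU₄.red_ne_zero)
    have hc₄pF : algebraMap K F (c₄ ^ p) ≠ 0 := by simpa using pow_ne_zero p hc₄0
    have e4 : algebraMap K F (c₄ ^ p / d) =
        ((1 + x) ^ p - 1) / algebraMap K F d *
          (((1 + x) ^ p - 1) / algebraMap K F (c₄ ^ p))⁻¹ := by
      have hn0 : (1 + x) ^ p - 1 ≠ 0 := by
        intro h0
        apply hZU.ne_zero
        rw [h0, zero_div]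
      rw [map_div₀]
      field_simp
    have hc₅ : c₄ ^ p / d ∈ S.A := by
      rw [← const_mem_iff (S := S), e4]
      exact mul_mem hY hZU.inv_mem
    obtain ⟨d₅, hd₅⟩ := hK (c₄ ^ p / d)
    have hd₅A : d₅ ∈ S.A := by
      rw [← const_mem_iff (S := S)]
      apply mem_of_pow_mem (S := S) hp.ne_zero
      rw [← map_pow, hd₅]
      exact (const_mem_iff _).mpr hc₅
    have hd₅O : algebraMap K F d₅ ∈ S.Ov := (const_mem_iff _).mpr hd₅A
    refine ⟨S.red (x / algebraMap K F c₄) * S.red (algebraMap K F d₅), ?_⟩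
    have e5 : ((1 + x) ^ p - 1) / algebraMap K F d =
        ((1 + x) ^ p - 1) / algebraMap K F (c₄ ^ p) * algebraMap K F d₅ ^ p := by
      rw [← map_pow, hd₅, map_div₀]
      field_simp
    rw [e5, red_mul hZ (pow_mem hd₅O p), hZr, red_pow hd₅O, mul_pow]

end OneSide2

/-! ### two-sided lemmas -/

section TwoSide

variable {K F k Fk₁ Fk₂ : Type*} [Field K] [Field F] [Algebra K F]
  [Field k] [Field Fk₁] [Algebra k Fk₁] [Field Fk₂] [Algebra k Fk₂] {ι : Type*}
  {N : NodalSetup K F k Fk₁ Fk₂ ι} {g : ℕ} {p : ℕ}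

/-- `p`-th roots of a nodal pair form a nodal pair. -/
theorem isNodalFn_of_pow (hp : p.Prime) (hk : (p : k) = 0) (hkp : ∀ c : k, ∃ d : k, d ^ p = c)
    {a₁ : Fk₁} {a₂ : Fk₂} (h : N.IsNodalFn (a₁ ^ p) (a₂ ^ p)) : N.IsNodalFn a₁ a₂ := by
  intro i
  obtain ⟨h1, h2, c, hc₁, hc₂⟩ := h i
  obtain ⟨c', rfl⟩ := hkp c
  exact ⟨ord_nonneg_of_pow hp _ h1, ord_nonneg_of_pow hp _ h2, c',
    valAt_of_pow hp hk _ hc₁, valAt_of_pow hp hk _ hc₂⟩

/-- **the core**: a function of `O₁ ∩ O₂`, regular off the discs of the `Rb j`, with poles of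
order `≤ p` at the `Rb j` (after reduction), vanishing at `P0`, whose reductions are
`a_i ^ p + c₀ a_i` for a nodal pair `(a₁, a₂)`: both reductions vanish. -/
theorem core (NS : NodalNS N g) (hp : p.Prime) {f : F} (h₁ : f ∈ N.S₁.Ov) (h₂ : f ∈ N.S₂.Ov)
    {a₁ : Fk₁} {a₂ : Fk₂} (c₀ : k) (hnod : N.IsNodalFn a₁ a₂)
    (hr₁ : N.S₁.red f = a₁ ^ p + algebraMap k Fk₁ c₀ * a₁)
    (hr₂ : N.S₂.red f = a₂ ^ p + algebraMap k Fk₂ c₀ * a₂)
    (hreg : ∀ v, (∀ j, N.r v ≠ some (NS.Rb j)) → 0 ≤ v.ord f)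
    (hpole : ∀ j, -(p : ℤ) ≤ ordRed N (NS.Rb j) f)
    (hz : 0 < NS.P0.ord f) : N.S₁.red f = 0 ∧ N.S₂.red f = 0 := by
  have hsm : ∀ X, IsSm N X → (∀ j, NS.Rb j ≠ X) → 0 ≤ ordRed N X f := fun X hX hne =>
    ordRed_nonneg N X hX (fun P hP => hreg P (fun j h' => hne j (by
      rw [hP] at h'; exact (Option.some.inj h').symm)))
  obtain ⟨c, hc₁, hc₂⟩ := NS.nonspecial a₁ a₂ hnod (by
      intro Q hQ
      by_cases hs : ∀ i, Q ≠ N.s₁ i
      · have h := hsm (Sum.inl Q) hs hQ
        unfold ordRed at h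
        rw [pairOrd_inl, hr₁] at h
        exact ord_nonneg_of_wp hp Q c₀ h
      · push Not at hs
        obtain ⟨i, rfl⟩ := hs
        exact (hnod i).1) (by
      intro Q hQ
      by_cases hs : ∀ i, Q ≠ N.s₂ i
      · have h := hsm (Sum.inr Q) hs hQ
        unfold ordRed at h
        rw [pairOrd_inr, hr₂] at h
        exact ord_nonneg_of_wp hp Q c₀ h
      · push Not at hs
        obtain ⟨i, rfl⟩ := hs
        exact (hnod i).2.1) (by
      intro i
      have h := hpole i
      unfold ordRed at h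
      revert h
      generalize NS.Rb i = X
      intro h
      cases X with
      | inl Q =>
        rw [pairOrd_inl, hr₁] at h
        exact ord_ge_neg_one_of_wp hp Q c₀ h
      | inr Q =>
        rw [pairOrd_inr, hr₂] at h
        exact ord_ge_neg_one_of_wp hp Q c₀ h)
  have e₁ : N.S₁.red f = algebraMap k Fk₁ (c ^ p + c₀ * c) := by
    rw [hr₁, hc₁, map_add, map_mul, map_pow]
  have e₂ : N.S₂.red f = algebraMap k Fk₂ (c ^ p + c₀ * c) := by
    rw [hr₂, hc₂, map_add, map_mul, map_pow]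
  by_contra hcon
  have hne : N.S₁.red f ≠ 0 ∨ N.S₂.red f ≠ 0 := by
    by_contra h
    push Not at h
    exact hcon h
  refine kl_final₂ NS Finset.univ h₁ h₂ hne
    (fun v hv => hreg v (fun j => hv j (Finset.mem_univ j))) ?_ hz
  intro j _
  unfold ordRed
  rw [e₁, e₂]
  generalize NS.Rb j = X
  cases X with
  | inl Q => rw [pairOrd_inl, Fermat.Agent.S24Res.ord_algebraMap]; norm_num
  | inr Q => rw [pairOrd_inr, Fermat.Agent.S24Res.ord_algebraMap]; norm_num

/-! ### Jacobi-form divisors -/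

section Jacobi

variable (NS : NodalNS N g) {m : ℕ} {P : Fin g → Place K F}
  (hP : ∀ i, N.r (P i) = some (NS.Rb i)) {u₀ : F}
  (hdiv : ∀ v : Place K F, v.ord u₀ =
    m * ∑ i, (Finsupp.single (P i) (1 : ℤ) v - Finsupp.single (NS.R i) (1 : ℤ) v))

include hP hdiv

/-- `u₀` has neither zero nor pole off the discs. -/
theorem jac_off (v : Place K F) (hv : ∀ j, N.r v ≠ some (NS.Rb j)) : v.ord u₀ = 0 := by
  rw [hdiv, Finset.sum_eq_zero, mul_zero]
  intro i _
  have h1 : v ≠ P i := fun e => hv i (by rw [e]; exact hP i)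
  have h2 : v ≠ NS.R i := fun e => hv i (by rw [e]; exact NS.r_R i)
  rw [Finsupp.single_eq_of_ne h1, Finsupp.single_eq_of_ne h2, sub_self]

/-- the divisor of `u₀` on the disc of `Rb j`. -/
theorem jac_on (j : Fin g) (v : Place K F) (hv : N.r v = some (NS.Rb j)) :
    v.ord u₀ = m * (Finsupp.single (P j) (1 : ℤ) v - Finsupp.single (NS.R j) (1 : ℤ) v) := by
  rw [hdiv, Finset.sum_eq_single j]
  · intro i _ hij
    have hne : N.r v ≠ some (NS.Rb i) := by
      rw [hv]
      exact fun e => hij (NS.Rb_inj (Option.some.inj e)).symm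
    have h1 : v ≠ P i := fun e => hne (by rw [e]; exact hP i)
    have h2 : v ≠ NS.R i := fun e => hne (by rw [e]; exact NS.r_R i)
    rw [Finsupp.single_eq_of_ne h1, Finsupp.single_eq_of_ne h2, sub_self]
  · intro h
    exact absurd (Finset.mem_univ j) h

/-- the push-forward of the divisor of `u₀` vanishes. -/
theorem jac_disc (j : Fin g) :
    Finsupp.mapDomain N.r (divOf N.S₁.hF u₀) (some (NS.Rb j)) = 0 := by
  have hD : divOf N.S₁.hF u₀ =
      (m : ℤ) • ∑ i, (Finsupp.single (P i) (1 : ℤ) - Finsupp.single (NS.R i) (1 : ℤ)) := by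
    ext v
    rw [divOf_apply, hdiv, Finsupp.smul_apply, Finsupp.finsetSum_apply, smul_eq_mul]
    simp only [Finsupp.sub_apply]
  have h0 : ∀ i, Finsupp.mapDomain N.r
      (Finsupp.single (P i) (1 : ℤ) - Finsupp.single (NS.R i) (1 : ℤ)) = 0 := by
    intro i
    rw [sub_eq_add_neg, ← Finsupp.single_neg, Finsupp.mapDomain_add, Finsupp.mapDomain_single,
      Finsupp.mapDomain_single, hP i, NS.r_R i, Finsupp.single_neg, add_neg_cancel]
  rw [hD, Finsupp.mapDomain_smul, Finsupp.mapDomain_finsetSum]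
  simp [h0]

/-- a `P0`-normalised Jacobi generator is a unit of both valuation rings. -/
theorem jac_isU₂ (hu₀ : u₀ ≠ 0) (hP0 : 0 < NS.P0.ord (u₀ - 1)) : IsU₂ N u₀ := by
  obtain ⟨c, hc0, hU, hval⟩ := kl_normalise₂ NS Finset.univ hu₀
    (fun v hv => jac_off NS hP hdiv v (fun j => hv j (Finset.mem_univ j)))
    (fun j _ => jac_disc NS hP hdiv j)
  have hcF : algebraMap K F c ≠ 0 := by simpa using hc0
  have hc1 : c - 1 = 0 := by
    refine kl_const_eq_zero_of_ord_pos NS.P0 hP0 ?_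
    rcases hval with h | h
    · left
      rw [div_eq_one_iff_eq hcF] at h
      rw [h, map_sub, map_one]
    · right
      have e : u₀ - 1 - algebraMap K F (c - 1) =
          algebraMap K F c * (u₀ / algebraMap K F c - 1) := by
        rw [map_sub, map_one]
        field_simp
        ring
      rw [e, kl_ord_const_mul NS.P0 hc0]
      exact h
  have hc : c = 1 := sub_eq_zero.mp hc1
  rw [hc, map_one, div_one] at hU
  exact hU

/-- the reductions of a `P0`-normalised Jacobi generator are `1`. -/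
theorem jac_red (hu₀ : u₀ ≠ 0) (hP0 : 0 < NS.P0.ord (u₀ - 1)) :
    N.S₁.red u₀ = 1 ∧ N.S₂.red u₀ = 1 := by
  have hU := jac_isU₂ NS hP hdiv hu₀ hP0
  have h₁ : u₀ - 1 ∈ N.S₁.Ov := sub_mem hU.u₁.mem (one_mem _)
  have h₂ : u₀ - 1 ∈ N.S₂.Ov := sub_mem hU.u₂.mem (one_mem _)
  have hr₁ : N.S₁.red (u₀ - 1) = N.S₁.red u₀ - 1 := by
    rw [N.S₁.red_sub hU.u₁.mem (one_mem _), N.S₁.red_one]
  have hr₂ : N.S₂.red (u₀ - 1) = N.S₂.red u₀ - 1 := by
    rw [N.S₂.red_sub hU.u₂.mem (one_mem _), N.S₂.red_one]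
  by_contra hcon
  have hne : N.S₁.red (u₀ - 1) ≠ 0 ∨ N.S₂.red (u₀ - 1) ≠ 0 := by
    by_contra h
    push Not at h
    apply hcon
    rw [hr₁, hr₂, sub_eq_zero, sub_eq_zero] at h
    exact h
  refine kl_final₂ NS Finset.univ h₁ h₂ hne ?_ ?_ hP0
  · intro v hv
    exact ord_nonneg_sub v (jac_off NS hP hdiv v (fun j => hv j (Finset.mem_univ j))).ge
      (ord_one_nonneg v)
  · intro j _
    have hsm := isSm_of_r N (NS.r_R j)
    have hd := jac_disc NS hP hdiv j
    have key : 0 ≤ ordRed N (NS.Rb j) (u₀ - 1) := by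
      unfold ordRed
      rw [hr₁, hr₂]
      revert hd hsm
      generalize NS.Rb j = X
      intro hsm hd
      cases X with
      | inl Q =>
        rw [pairOrd_inl]
        have h0 : Q.ord (N.S₁.red u₀) = 0 :=
          (push_eq (S := side₁ N) hU.u₁ Q hsm).symm.trans hd
        exact ord_nonneg_sub Q h0.ge (ord_one_nonneg Q)
      | inr Q =>
        rw [pairOrd_inr]
        have h0 : Q.ord (N.S₂.red u₀) = 0 :=
          (push_eq (S := side₂ N) hU.u₂ Q hsm).symm.trans hd
        exact ord_nonneg_sub Q h0.ge (ord_one_nonneg Q)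
    omega

/-- `(u₀ - 1) / d` is regular off the discs. -/
theorem jac_reg {d : K} (hd0 : d ≠ 0) (v : Place K F) (hv : ∀ j, N.r v ≠ some (NS.Rb j)) :
    0 ≤ v.ord ((u₀ - 1) / algebraMap K F d) := by
  rw [kl_ord_div_const v hd0]
  exact ord_nonneg_sub v (jac_off NS hP hdiv v hv).ge (ord_one_nonneg v)

/-- the reductions of `(u₀ - 1) / d` have poles of order at most `m` at the `Rb j`. -/
theorem jac_pole {d : K} (hd0 : d ≠ 0) (j : Fin g) :
    -(m : ℤ) ≤ ordRed N (NS.Rb j) ((u₀ - 1) / algebraMap K F d) := by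
  have hsm := isSm_of_r N (NS.r_R j)
  have hm0 : -(m : ℤ) ≤ 0 := by omega
  -- the bound on the disc
  have hb : ∀ v, N.r v = some (NS.Rb j) →
      0 ≤ v.ord ((u₀ - 1) / algebraMap K F d * NS.t j ^ m) := by
    intro v hv
    have htU := kl_t_isU₂ NS j
    have ht0 : NS.t j ≠ 0 := htU.u₁.ne_zero
    by_cases hf0 : (u₀ - 1) / algebraMap K F d = 0
    · rw [hf0, zero_mul, Place.ord_zero]
    rw [v.ord_mul hf0 (pow_ne_zero m ht0), kl_ord_pow, kl_ord_div_const v hd0]
    have h1 : -(m : ℤ) * Finsupp.single (NS.R j) (1 : ℤ) v ≤ v.ord (u₀ - 1) := by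
      by_cases hvR : v = NS.R j
      · subst hvR
        rw [Finsupp.single_eq_same, mul_one]
        refine kl_ord_sub_ge_of_ge _ hm0 ?_ (by rw [Place.ord_one]; exact hm0)
        rw [jac_on NS hP hdiv j _ hv, Finsupp.single_eq_same]
        have : (0 : ℤ) ≤ Finsupp.single (P j) (1 : ℤ) (NS.R j) := by
          by_cases e : P j = NS.R j
          · rw [e, Finsupp.single_eq_same]; norm_num
          · rw [Finsupp.single_eq_of_ne (Ne.symm e)]
        nlinarith
      · rw [Finsupp.single_eq_of_ne hvR, mul_zero]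
        refine ord_nonneg_sub v ?_ (ord_one_nonneg v)
        rw [jac_on NS hP hdiv j v hv, Finsupp.single_eq_of_ne hvR, sub_zero]
        have : (0 : ℤ) ≤ Finsupp.single (P j) (1 : ℤ) v := by
          by_cases e : v = P j
          · rw [e, Finsupp.single_eq_same]; norm_num
          · rw [Finsupp.single_eq_of_ne e]
        positivity
    have h2 : Finsupp.single (NS.R j) (1 : ℤ) v ≤ v.ord (NS.t j) := by
      by_cases hvR : v = NS.R j
      · subst hvR
        rw [Finsupp.single_eq_same]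
        have := NS.t_R j
        omega
      · rw [Finsupp.single_eq_of_ne hvR]
        exact NS.t_reg j j v hv
    nlinarith
  have hord := NS.ord_t_self j
  unfold ordRed
  revert hb hsm hord
  generalize NS.Rb j = X
  intro hsm hb hord
  cases X with
  | inl Q =>
    rw [pairOrd_inl] at hord ⊢
    by_cases h0 : N.S₁.red ((u₀ - 1) / algebraMap K F d) = 0
    · rw [h0, Place.ord_zero]; exact hm0
    · have hU : (side₁ N).IsU ((u₀ - 1) / algebraMap K F d) :=
        isU_of_red_ne_zero (S := side₁ N) (ValSetup.mem_of_red_ne_zero _ h0) h0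
      exact ord_red_ge_of_param (S := side₁ N) Q hsm hU (kl_t_isU₂ NS j).u₁ m hb hord
  | inr Q =>
    rw [pairOrd_inr] at hord ⊢
    by_cases h0 : N.S₂.red ((u₀ - 1) / algebraMap K F d) = 0
    · rw [h0, Place.ord_zero]; exact hm0
    · have hU : (side₂ N).IsU ((u₀ - 1) / algebraMap K F d) :=
        isU_of_red_ne_zero (S := side₂ N) (ValSetup.mem_of_red_ne_zero _ h0) h0
      exact ord_red_ge_of_param (S := side₂ N) Q hsm hU (kl_t_isU₂ NS j).u₂ m hb hord

end Jacobi

end TwoSide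

end PLv

end Fermat.Agent.BadRed
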