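import Mathlib
import Fermat.Agent.Lib.BadRed.Nodal.P.LevelAux
import Fermat.Agent.Lib.BadRed.Nodal.KeyJacobi

set_option autoImplicit false

/-!
# S33-new, seat P-L (helper42): the LEVEL lemma (L) and the AS-KEY lemma (AS)

Residue characteristic `p`, `lam` a uniformiser of `ℚ_p(ζ_p)` (`IsCycloUnif N p lam`),
`δ = lam ^ p` the critical level.  `K` has `p`-th roots (`K = ℚ̄` in the application).

* `PTor.level : LevelStatement N g NS p lam` — the `P0`-normalised generator `u₀` of a Jacobi-form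
  divisor `p ∑ (P i - R i)` which is split (`IsSplitFn`) has level `≥ δ`.
* `PTor.asKey : ASKeyStatement N p lam` — an ordinary divisor `D` of degree `0` with trivial
  reduction and `p D = div u`, `u ≡ 1 mod δ 𝔪` for both valuations, is principal
  (from Jacobi inversion `NJ.nodalJacobi` and the high-level key lemma `PTor.highLevel`).

Design: helper66's note "S33-new, elementary proof of COV", steps (L) and (AS).
-/

noncomputable section

open AlgebraicCurve Fermat.Agent.RR Fermat.Agent.Deuring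

namespace Fermat.Agent.BadRed

namespace PTor

open NK NKP PLv
open Fermat.Agent.S18Key (ord_neg' ord_nonneg_add ord_nonneg_sub ord_nonneg_mul ord_const_nonneg
  ord_one_nonneg ord_add_ge_of_ge ord_add_eq_of_lt mapDomain_apply_eq_sum sum_le_mapDomain
  mapDomain_nonneg le_mapDomain add_le_mapDomain kl_ord_const_mul kl_ord_mul_const
  kl_ord_div_const kl_ord_sum_ge kl_ord_prod kl_ord_pow kl_ord_sub_ge_of_ge
  kl_ne_zero_of_ord_ne_zero kl_const_eq_zero_of_ord_pos)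

variable {K F k Fk₁ Fk₂ : Type*} [Field K] [Field F] [Algebra K F]
  [Field k] [Field Fk₁] [Algebra k Fk₁] [Field Fk₂] [Algebra k Fk₂] {ι : Type*}

/-- the residue field is perfect if `K` has `p`-th roots. -/
theorem perfect_of_roots (N : NodalSetup K F k Fk₁ Fk₂ ι) {p : ℕ} (hp : p ≠ 0)
    (hK : ∀ c : K, ∃ d : K, d ^ p = c) (c : k) : ∃ d : k, d ^ p = c := by
  obtain ⟨⟨c', hc'⟩, rfl⟩ := N.S₁.res_surj c
  obtain ⟨d', hd'⟩ := hK c'
  have hd'A : d' ∈ N.S₁.A := by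
    refine (const_mem_iff (S := side₁ N) d').mp ?_
    apply mem_of_pow_mem (S := side₁ N) hp
    rw [← map_pow, hd']
    exact (const_mem_iff (S := side₁ N) _).mpr hc'
  refine ⟨N.S₁.res ⟨d', hd'A⟩, ?_⟩
  rw [← map_pow]
  congr 1
  exact Subtype.ext hd'

/-- the basic facts on `lam`, both sides. -/
theorem cyclo_facts {N : NodalSetup K F k Fk₁ Fk₂ ι} {p : ℕ} {lam : K}
    (h : IsCycloUnif N p lam) :
    InMax (side₁ N).A lam ∧ InMax (side₂ N).A lam ∧ (p : K) / lam ^ (p - 1) ∈ (side₁ N).A ∧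
      (p : K) / lam ^ (p - 1) ∈ (side₂ N).A ∧ (p : k) = 0 := by
  have h1 : InMax (side₁ N).A lam := ⟨h.mem, h.inv_not_mem⟩
  have h2 : InMax (side₂ N).A lam :=
    ⟨(mem_A₂_iff N _).mpr h.mem, fun hh => h.inv_not_mem ((mem_A₂_iff N _).mp hh)⟩
  have h3 : (p : K) / lam ^ (p - 1) ∈ (side₁ N).A := h.kappa_mem
  refine ⟨h1, h2, h3, (mem_A₂_iff N _).mpr h.kappa_mem, ?_⟩
  exact cast_p_eq_zero (S := side₁ N) (inMax_p (S := side₁ N) h.prime h.p_ne_zero h1 h3)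

/-- **(L) the level of a split Jacobi generator is at least the critical level.** -/
theorem level (N : NodalSetup K F k Fk₁ Fk₂ ι) (g : ℕ) (NS : NodalNS N g) (p : ℕ) (lam : K)
    (h : IsCycloUnif N p lam) (hK : ∀ c : K, ∃ d : K, d ^ p = c) :
    LevelStatement N g NS p lam := by
  intro P hP u₀ hu₀ hdiv hP0 hsplit
  have hp := h.prime
  obtain ⟨hlm₁, hlm₂, hκ₁, hκ₂, hk⟩ := cyclo_facts h
  have hkp := perfect_of_roots N hp.ne_zero hK
  have hU := jac_isU₂ NS hP hdiv hu₀ hP0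
  obtain ⟨hr₁, hr₂⟩ := jac_red NS hP hdiv hu₀ hP0
  have hu1 : u₀ - 1 ≠ 0 := by
    intro h0
    rw [h0, Place.ord_zero] at hP0
    exact lt_irrefl _ hP0
  obtain ⟨d, hd0, hd₁, hd₂, hne⟩ := exists_scale₂ N hu1
  have hdF : algebraMap K F d ≠ 0 := by simpa using hd0
  have hδ0 : lam ^ p ≠ 0 := pow_ne_zero _ h.ne_zero
  have hδF : algebraMap K F (lam ^ p) ≠ 0 := (map_ne_zero _).mpr hδ0
  by_contra hlev
  have hn : d / lam ^ p ∉ N.S₁.A := by
    intro hmem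
    apply hlev
    have e : (u₀ - 1) / algebraMap K F (lam ^ p) =
        (u₀ - 1) / algebraMap K F d * algebraMap K F (d / lam ^ p) := by
      rw [map_div₀]
      field_simp
    constructor
    · rw [e]; exact mul_mem hd₁ ((N.S₁.mem_Ov_iff _).mpr hmem)
    · rw [e]; exact mul_mem hd₂ ((N.S₂.mem_Ov_iff _).mpr ((mem_A₂_iff N _).mpr hmem))
  have hδd : InMax N.S₁.A (lam ^ p / d) := by
    refine ⟨?_, by rwa [inv_div]⟩
    rcases N.S₁.A.mem_or_inv_mem (d / lam ^ p) with h' | h'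
    · exact absurd h' hn
    · rwa [inv_div] at h'
  have hδd₂ : InMax N.S₂.A (lam ^ p / d) :=
    ⟨(mem_A₂_iff N _).mpr hδd.1, fun hh => hδd.2 ((mem_A₂_iff N _).mp hh)⟩
  obtain ⟨a₁, ha₁⟩ := exists_root_red (S := side₁ N) hp h.p_ne_zero hlm₁ hκ₁ hK hU.u₁ hr₁
    hsplit.1 hd0 hδd hd₁
  obtain ⟨a₂, ha₂⟩ := exists_root_red (S := side₂ N) hp h.p_ne_zero hlm₂ hκ₂ hK hU.u₂ hr₂
    hsplit.2 hd0 hδd₂ hd₂
  rw [side₁_red] at ha₁
  rw [side₂_red] at ha₂
  have hnod' : N.IsNodalFn (a₁ ^ p) (a₂ ^ p) := by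
    rw [← ha₁, ← ha₂]
    exact N.node _ hd₁ hd₂ (fun P' hP' => jac_reg NS hP hdiv hd0 P' (fun j => by rw [hP']; simp))
  have hnod := isNodalFn_of_pow hp hk hkp hnod'
  have hz : 0 < NS.P0.ord ((u₀ - 1) / algebraMap K F d) := by
    rw [kl_ord_div_const _ hd0]
    exact hP0
  obtain ⟨z₁, z₂⟩ := core NS hp hd₁ hd₂ (0 : k) hnod
    (by rw [map_zero, zero_mul, add_zero]; exact ha₁)
    (by rw [map_zero, zero_mul, add_zero]; exact ha₂)
    (jac_reg NS hP hdiv hd0) (jac_pole NS hP hdiv hd0) hz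
  rcases hne with h' | h'
  · exact h' z₁
  · exact h' z₂

/-- a function with an ordinary divisor has no pole in the annuli after subtracting `1`. -/
theorem ord_sub_one_nonneg_of_ord_eq_zero {P' : Place K F} {φ : F} (h0 : P'.ord φ = 0) (c : K)
    (hc : c ≠ 0) : 0 ≤ P'.ord ((φ - 1) / algebraMap K F c) := by
  rw [kl_ord_div_const P' hc]
  exact ord_nonneg_sub P' h0.ge (ord_one_nonneg P')

/-- **(AS)**: an ordinary divisor of degree `0` with trivial reduction, `p D = div u` with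
`u ≡ 1 mod lam ^ p 𝔪` for both valuations, is principal. -/
theorem asKey (N : NodalSetup K F k Fk₁ Fk₂ ι) (NS : NodalNS N (genusFF K F)) (p : ℕ) (lam : K)
    (h : IsCycloUnif N p lam) (hK : ∀ c : K, ∃ d : K, d ^ p = c) :
    ASKeyStatement N p lam := by
  intro D hdeg hred u hu hdivu hlev
  have hp := h.prime
  obtain ⟨hlm₁, hlm₂, hκ₁, hκ₂, hk⟩ := cyclo_facts h
  have hl0 : lam ≠ 0 := h.ne_zero
  have hlF : algebraMap K F lam ≠ 0 := (map_ne_zero _).mpr hl0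
  have hδ0 : lam ^ p ≠ 0 := pow_ne_zero _ hl0
  have hδF : algebraMap K F (lam ^ p) ≠ 0 := (map_ne_zero _).mpr hδ0
  have hδm₁ : InMax (side₁ N).A (lam ^ p) := hlm₁.pow hp.ne_zero
  have hδm₂ : InMax (side₂ N).A (lam ^ p) := hlm₂.pow hp.ne_zero
  obtain ⟨φ₀, P, hφ₀, hP, hE⟩ := NJ.nodalJacobi N _ NS rfl D hdeg hred
  -- the generator of the Jacobi form
  have hu₁0 : u * φ₀ ^ p ≠ 0 := mul_ne_zero hu (pow_ne_zero _ hφ₀)
  have hdiv₁ : ∀ v : Place K F, v.ord (u * φ₀ ^ p) =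
      p * ∑ i, (Finsupp.single (P i) (1 : ℤ) v - Finsupp.single (NS.R i) (1 : ℤ) v) := by
    intro v
    rw [v.ord_mul hu (pow_ne_zero _ hφ₀), kl_ord_pow, hdivu, ← hE v]
    ring
  obtain ⟨c, hc0, -, hval⟩ := kl_normalise₂ NS Finset.univ hu₁0
    (fun v hv => jac_off NS hP hdiv₁ v (fun j => hv j (Finset.mem_univ j)))
    (fun j _ => jac_disc NS hP hdiv₁ j)
  obtain ⟨c₁, hc₁⟩ := hK c
  have hc₁0 : c₁ ≠ 0 := by
    rintro rfl
    rw [zero_pow hp.ne_zero] at hc₁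
    exact hc0 hc₁.symm
  have hc₁F : algebraMap K F c₁ ≠ 0 := (map_ne_zero _).mpr hc₁0
  have hcF : algebraMap K F c ≠ 0 := (map_ne_zero _).mpr hc0
  set φ : F := φ₀ / algebraMap K F c₁ with hφdef
  have hφ0 : φ ≠ 0 := div_ne_zero hφ₀ hc₁F
  have hφord : ∀ v : Place K F, v.ord φ = v.ord φ₀ := fun v => kl_ord_div_const v hc₁0 φ₀
  set u' : F := u * φ ^ p with hu'def
  have hu'e : u' = u * φ₀ ^ p / algebraMap K F c := by
    rw [hu'def, hφdef, div_pow, ← map_pow, hc₁]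
    ring
  have hu'0 : u' ≠ 0 := mul_ne_zero hu (pow_ne_zero _ hφ0)
  have hdiv' : ∀ v : Place K F, v.ord u' =
      p * ∑ i, (Finsupp.single (P i) (1 : ℤ) v - Finsupp.single (NS.R i) (1 : ℤ) v) := by
    intro v
    rw [hu'e, kl_ord_div_const v hc0, hdiv₁]
  have hE' : ∀ v : Place K F, D v + v.ord φ =
      ∑ i, (Finsupp.single (P i) (1 : ℤ) v - Finsupp.single (NS.R i) (1 : ℤ) v) := by
    intro v
    rw [hφord]
    exact hE v
  rw [← hu'e] at hval
  -- the conclusion from `P i = R i`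
  have hfin : (∀ i, P i = NS.R i) → D ∈ Divisor.principal (K := K) (F := F) := by
    intro hmain
    refine ⟨φ⁻¹, inv_ne_zero hφ0, fun v => ?_⟩
    rw [v.ord_inv]
    have h' := hE' v
    rw [Finset.sum_eq_zero (fun i _ => by rw [hmain i, sub_self])] at h'
    omega
  have hpZ : (p : ℤ) ≠ 0 := by exact_mod_cast hp.ne_zero
  rcases hval with h1 | hP0
  · -- `u' = 1`
    apply hfin
    intro j
    by_contra hne
    have h' := jac_on NS hP hdiv' j (P j) (hP j)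
    rw [h1, Place.ord_one, Finsupp.single_eq_same, Finsupp.single_eq_of_ne hne, sub_zero,
      mul_one] at h'
    exact hpZ h'.symm
  -- `u'` is a `1`-unit
  have hU' := jac_isU₂ NS hP hdiv' hu'0 hP0
  obtain ⟨hr'₁, hr'₂⟩ := jac_red NS hP hdiv' hu'0 hP0
  -- `u` is a `1`-unit
  obtain ⟨⟨hm₁, hm₁r⟩, ⟨hm₂, hm₂r⟩⟩ := hlev
  set m₁ : F := (u - 1) / algebraMap K F (lam ^ p) with hm₁def
  have hue : u = 1 + algebraMap K F (lam ^ p) * m₁ := by
    rw [hm₁def]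
    field_simp
    ring
  obtain ⟨hu₁, hur₁⟩ := red_add_const_mul (S := side₁ N) (Y := 1) (one_mem _) hm₁ hδm₁.1 hδm₁.2
  obtain ⟨hu₂, hur₂⟩ := red_add_const_mul (S := side₂ N) (Y := 1) (one_mem _) hm₂ hδm₂.1 hδm₂.2
  rw [← hue, red_one] at hur₁ hur₂
  rw [← hue] at hu₁ hu₂
  have hUu₁ : (side₁ N).IsU u := isU_of_red_ne_zero hu₁ (by rw [hur₁]; exact one_ne_zero)
  have hUu₂ : (side₂ N).IsU u := isU_of_red_ne_zero hu₂ (by rw [hur₂]; exact one_ne_zero)
  -- `φ` is a `1`-unit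
  have hφp : φ ^ p = u' / u := by
    rw [hu'def, mul_comm, mul_div_assoc, div_self hu, mul_one]
  have hφpU₁ : (side₁ N).IsU (φ ^ p) := by rw [hφp]; exact hU'.u₁.div hUu₁
  have hφpU₂ : (side₂ N).IsU (φ ^ p) := by rw [hφp]; exact hU'.u₂.div hUu₂
  have hφpr₁ : (side₁ N).red (φ ^ p) = 1 := by
    have h1 : (side₁ N).red u * (side₁ N).red (φ ^ p) = (side₁ N).red u' := by
      rw [← red_mul hu₁ hφpU₁.mem]
    rw [hur₁, one_mul] at h1
    rw [h1]
    exact hr'₁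
  have hφpr₂ : (side₂ N).red (φ ^ p) = 1 := by
    have h1 : (side₂ N).red u * (side₂ N).red (φ ^ p) = (side₂ N).red u' := by
      rw [← red_mul hu₂ hφpU₂.mem]
    rw [hur₂, one_mul] at h1
    rw [h1]
    exact hr'₂
  obtain ⟨hφ₁, hφr₁⟩ := red_eq_one_of_pow (S := side₁ N) hp hk hφpU₁.mem hφpr₁
  obtain ⟨hφ₂, hφr₂⟩ := red_eq_one_of_pow (S := side₂ N) hp hk hφpU₂.mem hφpr₂
  set x : F := φ - 1 with hxdef
  have hx₁ : x ∈ (side₁ N).Ov := sub_mem hφ₁ (one_mem _)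
  have hx₂ : x ∈ (side₂ N).Ov := sub_mem hφ₂ (one_mem _)
  have hφx : φ = 1 + x := by rw [hxdef]; ring
  -- `φ` has neither zero nor pole in the annuli
  have hann : ∀ P' : Place K F, N.r P' = none → P'.ord φ = 0 := by
    intro P' hP'
    have hD0 : D P' = 0 := by
      by_contra hD
      obtain ⟨Q, hQ⟩ := hred.1 P' hD
      rw [hP'] at hQ
      exact Option.some_ne_none _ hQ.symm
    have h' := hE' P'
    rw [hD0, zero_add, Finset.sum_eq_zero] at h'
    · exact h'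
    · intro i _
      have h1 : P' ≠ P i := fun e => by rw [e, hP i] at hP'; exact Option.some_ne_none _ hP'
      have h2 : P' ≠ NS.R i := fun e => by rw [e, NS.r_R i] at hP'; exact Option.some_ne_none _ hP'
      rw [Finsupp.single_eq_of_ne h1, Finsupp.single_eq_of_ne h2, sub_self]
  -- the identity `u' - 1 = (φ ^ p - 1) + δ m₁ φ ^ p`
  have hz : ∀ d : K, d ≠ 0 → 0 < NS.P0.ord ((u' - 1) / algebraMap K F d) := by
    intro d hd
    rw [kl_ord_div_const _ hd]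
    exact hP0
  by_cases hhi : x / algebraMap K F lam ∈ N.S₁.Ov ∧ x / algebraMap K F lam ∈ N.S₂.Ov
  · -- the critical case
    obtain ⟨hB₁, hB₂⟩ := hhi
    set B : F := x / algebraMap K F lam with hBdef
    have hφB : φ = 1 + algebraMap K F lam * B := by
      rw [hφx, hBdef]
      field_simp
    obtain ⟨hC₁, hCr₁⟩ := red_crit (S := side₁ N) hp hlm₁ hκ₁ hB₁
    obtain ⟨hC₂, hCr₂⟩ := red_crit (S := side₂ N) hp hlm₂ hκ₂ hB₂
    rw [← hφB] at hC₁ hCr₁ hC₂ hCr₂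
    have hEe : (u' - 1) / algebraMap K F (lam ^ p) =
        (φ ^ p - 1) / algebraMap K F (lam ^ p) + m₁ * φ ^ p := by
      rw [hu'def, hm₁def]
      field_simp
      ring
    have hE₁ : (u' - 1) / algebraMap K F (lam ^ p) ∈ N.S₁.Ov := by
      rw [hEe]; exact add_mem hC₁ (mul_mem hm₁ hφpU₁.mem)
    have hE₂ : (u' - 1) / algebraMap K F (lam ^ p) ∈ N.S₂.Ov := by
      rw [hEe]; exact add_mem hC₂ (mul_mem hm₂ hφpU₂.mem)
    have hκ₂' : (p : K) / lam ^ (p - 1) ∈ N.S₂.A := hκ₂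
    have hEr₁ : N.S₁.red ((u' - 1) / algebraMap K F (lam ^ p)) =
        N.S₁.red B ^ p + algebraMap k Fk₁ (N.S₁.res ⟨_, h.kappa_mem⟩) * N.S₁.red B := by
      rw [hEe, N.S₁.red_add hC₁ (mul_mem hm₁ hφpU₁.mem), N.S₁.red_mul hm₁ hφpU₁.mem, hm₁r,
        zero_mul, add_zero]
      rw [← side₁_red, hCr₁, red_const (S := side₁ N) h.kappa_mem]
      rfl
    have hEr₂ : N.S₂.red ((u' - 1) / algebraMap K F (lam ^ p)) =
        N.S₂.red B ^ p + algebraMap k Fk₂ (N.S₁.res ⟨_, h.kappa_mem⟩) * N.S₂.red B := by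
      rw [hEe, N.S₂.red_add hC₂ (mul_mem hm₂ hφpU₂.mem), N.S₂.red_mul hm₂ hφpU₂.mem, hm₂r,
        zero_mul, add_zero]
      rw [← side₂_red, hCr₂, red_const (S := side₂ N) hκ₂, N.res_eq _ h.kappa_mem hκ₂']
      rfl
    have hnod : N.IsNodalFn (N.S₁.red B) (N.S₂.red B) :=
      N.node B hB₁ hB₂ (fun P' hP' => ord_sub_one_nonneg_of_ord_eq_zero (hann P' hP') lam hl0)
    obtain ⟨z₁, z₂⟩ := core NS hp hE₁ hE₂ _ hnod hEr₁ hEr₂
      (jac_reg NS hP hdiv' hδ0) (jac_pole NS hP hdiv' hδ0) (hz _ hδ0)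
    exact hfin (highLevel N _ NS p lam h P hP u' hu'0 hdiv' hP0 ⟨⟨hE₁, z₁⟩, ⟨hE₂, z₂⟩⟩)
  · -- the low case: contradiction
    exfalso
    have hx0 : x ≠ 0 := by
      intro h0
      apply hhi
      rw [h0, zero_div]
      exact ⟨zero_mem _, zero_mem _⟩
    obtain ⟨c', hc'0, hxc₁, hxc₂, hne⟩ := exists_scale₂ N hx0
    have hc'F : algebraMap K F c' ≠ 0 := (map_ne_zero _).mpr hc'0
    have hn : c' / lam ∉ N.S₁.A := by
      intro hmem
      apply hhi
      have e : x / algebraMap K F lam = x / algebraMap K F c' * algebraMap K F (c' / lam) := by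
        rw [map_div₀]
        field_simp
      constructor
      · rw [e]; exact mul_mem hxc₁ ((N.S₁.mem_Ov_iff _).mpr hmem)
      · rw [e]; exact mul_mem hxc₂ ((N.S₂.mem_Ov_iff _).mpr ((mem_A₂_iff N _).mpr hmem))
    have hlc₁ : InMax (side₁ N).A (lam / c') := by
      refine ⟨?_, by rwa [inv_div]⟩
      rcases N.S₁.A.mem_or_inv_mem (c' / lam) with h' | h'
      · exact absurd h' hn
      · rwa [inv_div] at h'
    have hlc₂ : InMax (side₂ N).A (lam / c') :=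
      ⟨(mem_A₂_iff N _).mpr hlc₁.1, fun hh => hlc₁.2 ((mem_A₂_iff N _).mp hh)⟩
    obtain ⟨hZ₁, hZr₁⟩ := red_low (S := side₁ N) hp h.p_ne_zero hκ₁ hc'0 hlc₁ hx₁ hxc₁
    obtain ⟨hZ₂, hZr₂⟩ := red_low (S := side₂ N) hp h.p_ne_zero hκ₂ hc'0 hlc₂ hx₂ hxc₂
    rw [← hφx] at hZ₁ hZr₁ hZ₂ hZr₂
    have hc'p0 : c' ^ p ≠ 0 := pow_ne_zero _ hc'0
    have hc'pF : algebraMap K F (c' ^ p) ≠ 0 := (map_ne_zero _).mpr hc'p0
    have hq₁ : InMax (side₁ N).A (lam ^ p / c' ^ p) := by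
      rw [← div_pow]; exact hlc₁.pow hp.ne_zero
    have hq₂ : InMax (side₂ N).A (lam ^ p / c' ^ p) := by
      rw [← div_pow]; exact hlc₂.pow hp.ne_zero
    have hfe : (u' - 1) / algebraMap K F (c' ^ p) =
        (φ ^ p - 1) / algebraMap K F (c' ^ p) +
          algebraMap K F (lam ^ p / c' ^ p) * (m₁ * φ ^ p) := by
      rw [hu'def, hm₁def, map_div₀]
      field_simp
      ring
    obtain ⟨hf₁, hfr₁⟩ := red_add_const_mul (S := side₁ N) hZ₁ (mul_mem hm₁ hφpU₁.mem)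
      hq₁.1 hq₁.2
    obtain ⟨hf₂, hfr₂⟩ := red_add_const_mul (S := side₂ N) hZ₂ (mul_mem hm₂ hφpU₂.mem)
      hq₂.1 hq₂.2
    rw [← hfe] at hf₁ hfr₁ hf₂ hfr₂
    rw [hZr₁] at hfr₁
    rw [hZr₂] at hfr₂
    have hnod : N.IsNodalFn (N.S₁.red (x / algebraMap K F c')) (N.S₂.red (x / algebraMap K F c')) :=
      N.node _ hxc₁ hxc₂
        (fun P' hP' => ord_sub_one_nonneg_of_ord_eq_zero (hann P' hP') c' hc'0)
    obtain ⟨z₁, z₂⟩ := core NS hp hf₁ hf₂ (0 : k) hnod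
      (by rw [map_zero, zero_mul, add_zero]; exact hfr₁)
      (by rw [map_zero, zero_mul, add_zero]; exact hfr₂)
      (jac_reg NS hP hdiv' hc'p0) (jac_pole NS hP hdiv' hc'p0) (hz _ hc'p0)
    rw [side₁_red] at hfr₁
    rw [side₂_red] at hfr₂
    rw [z₁] at hfr₁
    rw [z₂] at hfr₂
    rcases hne with h' | h'
    · exact h' (pow_eq_zero_iff hp.ne_zero |>.mp hfr₁.symm)
    · exact h' (pow_eq_zero_iff hp.ne_zero |>.mp hfr₂.symm)

end PTor

end Fermat.Agent.BadRed
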