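import Mathlib
import Fermat.Agent.Lib.BadRed.Nodal.P.Defs
import Fermat.Agent.Lib.BadRed.Nodal.P.OrdRep

set_option autoImplicit false

/-!
# S33-new, seat P-R0: `OrdRepStatement`

`ordRepStatement`: for a nodal setup with `GenusRel`, residue field `k` infinite of characteristic
`p`, and `K` closed under `p`-th roots, `PTor.OrdRepStatement N p` holds.
-/

noncomputable section

open AlgebraicCurve Fermat.Agent.RR Fermat.Agent.Deuring

namespace Fermat.Agent.BadRed.NodalP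

open Fermat.Agent.BadRed.Gluing

variable {K F k Fk₁ Fk₂ ι : Type*} [Field K] [Field F] [Algebra K F]
  [Field k] [Field Fk₁] [Algebra k Fk₁] [Field Fk₂] [Algebra k Fk₂]
  {N : NodalSetup K F k Fk₁ Fk₂ ι}

/-- the divisor `(1 / n) div g`. -/
def divOfDiv (h : IsRRField K F) (n : ℕ) (g : F) : Divisor K F :=
  Finsupp.mapRange (fun z : ℤ => z / (n : ℤ)) (by simp) (divOf h g)

theorem divOfDiv_apply (h : IsRRField K F) (n : ℕ) (g : F) (P : Place K F) :
    divOfDiv h n g P = P.ord g / (n : ℤ) := by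
  unfold divOfDiv
  rw [Finsupp.mapRange_apply, divOf_apply]

theorem mul_divOfDiv_apply (h : IsRRField K F) {n : ℕ} {g : F}
    (hdiv : ∀ P : Place K F, (n : ℤ) ∣ P.ord g) (P : Place K F) :
    (n : ℤ) * divOfDiv h n g P = P.ord g := by
  rw [divOfDiv_apply]
  exact Int.mul_ediv_cancel' (hdiv P)

theorem degree_divOfDiv (h : IsRRField K F) {n : ℕ} (hn : n ≠ 0) {g : F}
    (hdiv : ∀ P : Place K F, (n : ℤ) ∣ P.ord g) :
    Divisor.degree (divOfDiv h n g) = 0 := by
  have h1 : n • divOfDiv h n g = divOf h g := by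
    ext P
    rw [Finsupp.smul_apply, divOf_apply, nsmul_eq_mul]
    exact mul_divOfDiv_apply h hdiv P
  have h2 : n • Divisor.degree (divOfDiv h n g) = 0 := by
    rw [← map_nsmul, h1, degree_divOf]
  rw [nsmul_eq_mul] at h2
  rcases mul_eq_zero.mp h2 with h3 | h3
  · exact absurd (by exact_mod_cast h3) hn
  · exact h3

/-- **(R0)** in the form of `PTor.OrdRepStatement`. -/
theorem ordRepStatement [Fintype ι] [Infinite k] (p : ℕ) [Fact p.Prime] [CharP k p]
    (hK : ∀ x : K, ∃ y : K, y ^ p = x) (hrel : N.GenusRel) :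
    PTor.OrdRepStatement N p := by
  intro g hg hdiv ⟨c₁, hc₁, h₁, hh₁, hr₁⟩ ⟨c₂, hc₂, h₂, hh₂, hr₂⟩
  have hp : p ≠ 0 := (Fact.out : p.Prime).ne_zero
  obtain ⟨c₀, hc₀⟩ := hK (c₁ / c₂)
  have hc₀0 : c₀ ≠ 0 := by
    rintro rfl
    rw [zero_pow hp] at hc₀
    exact div_ne_zero hc₁ hc₂ hc₀.symm
  let d : GData N p :=
    { D := divOfDiv N.S₁.hF p g
      g := g
      c₁ := c₁
      c₂ := c₂
      c₀ := c₀
      h₁ := h₁
      h₂ := h₂
      hdeg := degree_divOfDiv N.S₁.hF hp hdiv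
      hg := hg
      hdiv := fun P => (mul_divOfDiv_apply N.S₁.hF hdiv P).symm
      hc₁ := hc₁
      hc₂ := hc₂
      hc₀0 := hc₀0
      hh₁ := hh₁
      hh₂ := hh₂
      hred₁ := hr₁
      hred₂ := hr₂
      hc₀ := hc₀ }
  obtain ⟨φ, hφ0, -, -, hred, -, -, e1, e2⟩ :=
    exists_redTrivial_rep hp (fun z hz => eq_one_of_pow_char_pow_eq_one p 1 (by rwa [pow_one]))
      hrel d
  have hf : d.f φ = algebraMap K F c₁⁻¹ * φ ^ p * g := by
    change φ ^ p * (g / algebraMap K F c₁) = _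
    rw [map_inv₀]
    ring
  refine ⟨φ, c₁⁻¹, divOf N.S₁.hF φ + d.D, hφ0, inv_ne_zero hc₁, ?_, hred, fun v => ?_, ?_, ?_⟩
  · rw [map_add, degree_divOf, d.hdeg, add_zero]
  · rw [← hf, d.ord_f hφ0, Finsupp.add_apply, divOf_apply]
  · rw [← hf]; exact e1
  · rw [← hf]; exact e2

/-- **(R0)** for algebraically closed `K`. -/
theorem ordRepStatement_of_isAlgClosed [IsAlgClosed K] [Fintype ι] [Infinite k] (p : ℕ)
    [Fact p.Prime] [CharP k p] (hrel : N.GenusRel) : PTor.OrdRepStatement N p :=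
  ordRepStatement p
    (fun x => IsAlgClosed.exists_pow_nat_eq x (Fact.out : p.Prime).pos) hrel

end Fermat.Agent.BadRed.NodalP
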