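import Mathlib
import Fermat.Agent.Lib.BadRed.Nodal.P.Cov
import Fermat.Agent.Lib.BadRed.Nodal.P.Level
import Fermat.Agent.Lib.BadRed.Nodal.P.OrdRepMain

set_option autoImplicit false

/-!
# S33-new: `(COV)` for the abstract nodal package, all inputs plugged in

`pCovMain` : `PCovStatement N p lam` from `IsCycloUnif N p lam`, `p`-th roots in `K`, the genus
relation and a `NodalNS` package; inputs `(R0)` (`NodalP.ordRepStatement`, helper46), `(L)` and
`(AS)` (`PTor.level`, `PTor.asKey`, helper42), `(HL)` inside them, and `PCov.pCov`.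
-/

noncomputable section

open AlgebraicCurve Fermat.Agent.RR Fermat.Agent.Deuring

namespace Fermat.Agent.BadRed.PCov

open Fermat.Agent.BadRed.PTor

theorem charP_of_cast_eq_zero {k : Type*} [Field k] {p : ℕ} (hp : p.Prime)
    (h : (p : k) = 0) : CharP k p := by
  obtain ⟨q, hq⟩ := CharP.exists k
  have hqp : q ∣ p := (CharP.cast_eq_zero_iff k q p).mp h
  rcases (Nat.dvd_prime hp).mp hqp with h1 | h1
  · exact absurd h1 (CharP.char_ne_one k q)
  · rw [← h1]
    exact hq

variable {K F k Fk₁ Fk₂ : Type*} [Field K] [Field F] [Algebra K F]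
  [Field k] [Field Fk₁] [Algebra k Fk₁] [Field Fk₂] [Algebra k Fk₂] {ι : Type*}

/-- the residue field of a nodal package with a cyclotomic uniformiser for `p` has
characteristic `p`. -/
theorem charP_of_isCycloUnif {N : NodalSetup K F k Fk₁ Fk₂ ι} {p : ℕ} {lam : K}
    (h : IsCycloUnif N p lam) : CharP k p :=
  charP_of_cast_eq_zero h.prime (cyclo_facts h).2.2.2.2

/-- **(COV)** for the abstract nodal package: an inertial automorphism `t` with
`t (lam ^ p) / lam ^ p ≡ e mod lam` acts on the split `p`-torsion classes by `e`. -/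
theorem pCovMain [Fintype ι] [Infinite k] (N : NodalSetup K F k Fk₁ Fk₂ ι)
    (NS : NodalNS N (genusFF K F)) (p : ℕ) (lam : K) (h : IsCycloUnif N p lam)
    (hK : ∀ c : K, ∃ d : K, d ^ p = c) (hrel : N.GenusRel) : PCovStatement N p lam := by
  haveI : Fact p.Prime := ⟨h.prime⟩
  haveI : CharP k p := charP_of_isCycloUnif h
  exact pCov N NS p lam h (NodalP.ordRepStatement p hK hrel) (level N _ NS p lam h hK)
    (asKey N NS p lam h hK)

/-- `pCovMain` with `Nonempty (NodalNS N (genusFF K F))`. -/
theorem pCovMain_of_nonempty [Fintype ι] [Infinite k] (N : NodalSetup K F k Fk₁ Fk₂ ι)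
    (hNS : Nonempty (NodalNS N (genusFF K F))) (p : ℕ) (lam : K) (h : IsCycloUnif N p lam)
    (hK : ∀ c : K, ∃ d : K, d ^ p = c) (hrel : N.GenusRel) : PCovStatement N p lam := by
  obtain ⟨NS⟩ := hNS
  exact pCovMain N NS p lam h hK hrel

end Fermat.Agent.BadRed.PCov
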